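import Fermat.Agent.HW.FrobQuadratic
import Fermat.Agent.S58.Two.Ord
import Fermat.Agent.S58.Two.Super
import Fermat.Agent.S58.Two.Count

/-!
# S58 / (E9) : `φ² - a φ + 2 = 0` for elliptic curves over `𝔽₂`  (the case excluded in `HW.frob_quadratic`)

Needed in S58 because the conclusion asks `a₂(g) = a₂(W)` when `2 ∤ Δ` (and `2 ∣ N` is allowed).

As in `HW.frob_quadratic` it is enough to treat a point `Q = (x, y)` with `x` transcendental over `ZMod 2`
(only `x² ≠ x` is used).  The 16 curves fall into 5 families (`Two/Count.lean`), treated in `Two/Ord.lean`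
(`a₁ = 1`, `a = ± 1`: `2Q = ± φ(±Q - φQ)`) and `Two/Super.lean` (`a₁ = 0`, `a₃ = 1`, `a ∈ {0, 2, -2}`).
-/

set_option autoImplicit false

namespace Fermat.Agent.S58

open WeierstrassCurve Fermat.Agent.HW Fermat.Agent.S05
open scoped WeierstrassCurve.Affine

theorem frob_two_of_sq_ne (W : WeierstrassCurve (ZMod 2)) (hΔ : W.Δ ≠ 0) {L : Type*} [Field L]
    [Algebra (ZMod 2) L] [DecidableEq L] {Q : (W.toAffine⁄L).Point} (hQ : Q ≠ 0)
    (hx : xc Q - xc Q ^ 2 ≠ 0) :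
    frob W L (frob W L Q)
      - (((2 : ℕ) : ℤ) + 1 - (Nat.card W.toAffine.Point : ℤ)) • frob W L Q
      + ((2 : ℕ) : ℤ) • Q = 0 := by
  have : CharP L 2 := charP_of_injective_algebraMap (algebraMap (ZMod 2) L).injective 2
  have hφ := frobData W L
  have e1 : (W.toAffine⁄L).a₁ = algebraMap (ZMod 2) L W.a₁ := rfl
  have e2 : (W.toAffine⁄L).a₂ = algebraMap (ZMod 2) L W.a₂ := rfl
  have e3 : (W.toAffine⁄L).a₃ = algebraMap (ZMod 2) L W.a₃ := rfl
  have e4 : (W.toAffine⁄L).a₄ = algebraMap (ZMod 2) L W.a₄ := rfl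
  have e6 : (W.toAffine⁄L).a₆ = algebraMap (ZMod 2) L W.a₆ := rfl
  have i3 : (W.toAffine⁄L).a₃ ^ 2 = (W.toAffine⁄L).a₃ := by
    rw [e3, ← map_pow, Two.sq_eq_self_zmod2]
  have i4 : (W.toAffine⁄L).a₄ ^ 2 = (W.toAffine⁄L).a₄ := by
    rw [e4, ← map_pow, Two.sq_eq_self_zmod2]
  have i6 : (W.toAffine⁄L).a₆ ^ 2 = (W.toAffine⁄L).a₆ := by
    rw [e6, ← map_pow, Two.sq_eq_self_zmod2]
  rw [Two.card_eq_cnt W hΔ]
  rcases Two.classify W.a₁ W.a₂ W.a₃ W.a₄ W.a₆ hΔ with ⟨h1, h3, h24, hc⟩ | ⟨h1, h3, h24, h6, hc⟩ |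
    ⟨h1, h3, h24, h6, hc⟩ | ⟨h1, h23, h8, hc⟩ | ⟨h1, h23, h8, hc⟩
  · have := Two.ss_zero hφ (by rw [e1, h1, map_zero]) (by rw [e3, h3, map_one])
      (by rw [e2, e4, h24]) i4 i6 Q
    rw [hc]
    rw [← this]
    simp only [Nat.cast_ofNat, Nat.cast_add, Nat.cast_one]
    norm_num
    rw [two_zsmul]
  · have := Two.ss_pos hφ (by rw [e1, h1, map_zero]) (by rw [e3, h3, map_one])
      (by rw [e2, e4, h24, map_add, map_one]) i4 (by rw [e6, h6, map_one]) hQ hx
    rw [hc]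
    rw [← this]
    simp only [Nat.cast_ofNat, Nat.cast_add, Nat.cast_one, Nat.cast_zero]
    norm_num
    rw [two_zsmul, two_zsmul]
  · have := Two.ss_neg hφ (by rw [e1, h1, map_zero]) (by rw [e3, h3, map_one])
      (by rw [e2, e4, h24, map_add, map_one]) i4 (by rw [e6, h6, map_zero]) hQ hx
    rw [hc]
    rw [← this]
    simp only [Nat.cast_ofNat, Nat.cast_add, Nat.cast_one]
    norm_num
    rw [two_zsmul, two_zsmul]
  · have := Two.ord_pos hφ (by rw [e1, h1, map_one]) i3 i4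
      (by rw [e2, e3, h23, map_add, map_one])
      (by rw [e6, e3, e4, h8]; simp only [map_add, map_mul, map_one]) hQ hx
    rw [hc]
    rw [← this]
    simp only [Nat.cast_ofNat, Nat.cast_add, Nat.cast_one]
    norm_num
    rw [two_zsmul]
  · have := Two.ord_neg hφ (by rw [e1, h1, map_one]) i3 i4
      (by rw [e2, e3, h23])
      (by rw [e6, e3, e4, h8]; simp only [map_add, map_mul, map_one]) hQ hx
    rw [hc]
    rw [← this]
    simp only [Nat.cast_ofNat, Nat.cast_add, Nat.cast_one]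
    norm_num
    rw [two_zsmul]

theorem sq_ne_of_transcendental {F L : Type*} [Field F] [Field L] [Algebra F L] {x : L}
    (hx : Transcendental F x) : x - x ^ 2 ≠ 0 := by
  intro h
  apply hx
  refine ⟨Polynomial.X - Polynomial.X ^ 2, ?_, by simpa using h⟩
  intro h0
  have := congrArg (fun p => Polynomial.coeff p 1) h0
  simp [Polynomial.coeff_X, Polynomial.coeff_X_pow] at this

/-- the exact relation (no factor `2`). -/
theorem frob_two (W : WeierstrassCurve (ZMod 2)) (hΔ : W.Δ ≠ 0) {k : Type*} [Field k]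
    [Algebra (ZMod 2) k] [DecidableEq k] (P : (W.toAffine⁄k).Point) :
    frob W k (frob W k P)
      - (((2 : ℕ) : ℤ) + 1 - (Nat.card W.toAffine.Point : ℤ)) • frob W k P
      + ((2 : ℕ) : ℤ) • P = 0 := by
  classical
  obtain ⟨η, hη0, hη⟩ := exists_generic (k := k) W hΔ
  set L := AlgebraicClosure (RatFunc k)
  set ι := Affine.Point.map (W' := W.toAffine) (IsScalarTower.toAlgHom (ZMod 2) k L) with hι
  obtain ⟨h0, h1⟩ := transcendental_xc_add W hη P
  have e1 := frob_two_of_sq_ne W hΔ hη0 (sq_ne_of_transcendental hη)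
  have e2 := frob_two_of_sq_ne W hΔ h0 (sq_ne_of_transcendental h1)
  apply Affine.Point.map_injective (W' := W.toAffine) (IsScalarTower.toAlgHom (ZMod 2) k L)
  rw [← hι] at e2 ⊢
  simp only [map_add, map_sub, map_zsmul, smul_add, map_zero] at e1 e2 ⊢
  rw [hι, ← frob_map, ← frob_map, ← hι]
  have e3 := congrArg₂ (· - ·) e2 e1
  simp only [sub_zero] at e3
  rw [← e3]
  abel

/-- (E9) -/
theorem frob_quadratic_two (W : WeierstrassCurve (ZMod 2)) (hΔ : W.Δ ≠ 0) {k : Type*} [Field k]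
    [Algebra (ZMod 2) k] [DecidableEq k] (P : (W.toAffine⁄k).Point) :
    (2 : ℤ) • (frob W k (frob W k P)
      - (((2 : ℕ) : ℤ) + 1 - (Nat.card W.toAffine.Point : ℤ)) • frob W k P
      + ((2 : ℕ) : ℤ) • P) = 0 := by
  rw [frob_two W hΔ P, smul_zero]

/-- `HW.frob_quadratic` without the hypothesis `ℓ ≠ 2`. -/
theorem frob_quadratic_all {ℓ : ℕ} [Fact ℓ.Prime] (W : WeierstrassCurve (ZMod ℓ)) (hΔ : W.Δ ≠ 0)
    {k : Type*} [Field k] [Algebra (ZMod ℓ) k] [DecidableEq k] (P : (W.toAffine⁄k).Point) :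
    (2 : ℤ) • (frob W k (frob W k P)
      - ((ℓ : ℤ) + 1 - (Nat.card W.toAffine.Point : ℤ)) • frob W k P + (ℓ : ℤ) • P) = 0 := by
  by_cases hℓ : ℓ = 2
  · subst hℓ
    exact frob_quadratic_two W hΔ P
  · exact frob_quadratic W hℓ hΔ P

end Fermat.Agent.S58
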