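import Fermat.Agent.HW.Main
import Fermat.Agent.HW.TorsCount
import Fermat.Agent.HW.Pow.Main
import Fermat.Agent.HW.Pow.Unip
import Fermat.Agent.S58.FrobTwo

/-!
# S58 / E-SIDE : the interface on `E[m]`, `m` odd (in practice `m = lam ^ n`)

Owner : helper52 (HW phase 3).  These are the shapes consumed by `S58/TE.lean`.
`W : WeierstrassCurve ℤ`, points over `Qbar` as in `HW.frobenius_relation`.

* (E1) `frobenius_relation_odd` : `HW.frobenius_relation` with `m • P = 0`, `m` odd, coprime to `ℓ`, and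
  WITHOUT `ℓ ≠ 2` (uses `S58.frob_quadratic_all`).
* (E2) `inertia_good` : inertia at a good prime `q ∤ m` (INCLUDING `q = 2`) fixes `E[m]`.
* (E3) `exists_order_add_inv` : at a multiplicative prime `q ∤ m` (INCLUDING `q = 2, 3`) there is a
  point `P` of EXACT order `m` with `σ P + σ⁻¹ P = 2 P` for all `σ` in inertia.
  (By the pseudo-character core `σ x + σ⁻¹ x = P_σ x` on `E[m]`, so `2 e₁ = P_σ e₁`, `P_σ ≡ 2 mod m`.)
  Extras: `inertia_unipotent`, `inertia_add_inv` (every `P ∈ E[m]`), `exists_addOrderOf_eq`.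
-/

set_option autoImplicit false
set_option linter.unusedVariables false

namespace Fermat.Agent.S58

open WeierstrassCurve Fermat.Agent.S05
open scoped WeierstrassCurve.Affine

/-- `E(Qbar)` for an integral model. -/
abbrev EQ (W : WeierstrassCurve ℤ) : Type :=
  ((W.map (Int.castRingHom ℚ)).toAffine⁄(AlgebraicClosure ℚ)).Point

theorem not_dvd_of_coprime {m q : ℕ} (hq : q.Prime) (h : Nat.Coprime m q) : ¬ q ∣ m := by
  intro hd
  have h1 : q ∣ Nat.gcd m q := Nat.dvd_gcd hd dvd_rfl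
  rw [h] at h1
  exact hq.one_lt.ne' (Nat.dvd_one.1 h1)

/-- (E1) -/
theorem frobenius_relation_odd (W : WeierstrassCurve ℤ) {ℓ m : ℕ} (hℓ : ℓ.Prime)
    (hgood : W.IsGoodPrimeFor ℓ) (hm : Odd m) (hmℓ : Nat.Coprime m ℓ)
    (A : ValuationSubring (AlgebraicClosure ℚ)) (hA : A.LiesOverPrime ℓ)
    (τ : AlgebraicClosure ℚ ≃ₐ[ℚ] AlgebraicClosure ℚ) (hτ : A.IsFrobeniusAt τ ℓ)
    (P : EQ W) (hP : m • P = 0) :
    τ • τ • P - W.apOfModel ℓ • τ • P + (ℓ : ℤ) • P = 0 := by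
  classical
  have : Fact ℓ.Prime := ⟨hℓ⟩
  have hqA : A.valuation ((ℓ : ℕ) : AlgebraicClosure ℚ) < 1 := hA
  have : CharP (IsLocalRing.ResidueField A) ℓ :=
    (CharP.charP_iff_prime_eq_zero hℓ).mpr (residue_natCast_eq_zero A hqA)
  let _ : Algebra (ZMod ℓ) (IsLocalRing.ResidueField A) := ZMod.algebra _ ℓ
  have hΔ : IsUnit (W.map (Int.castRingHom A)).Δ := by
    rw [WeierstrassCurve.map_Δ, A.valuation_eq_one_iff]
    have := valuation_intCast_eq_one A hℓ hqA (n := W.Δ) hgood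
    simpa using this
  have hΔ' : (W.reductionMod ℓ).Δ ≠ 0 := by
    rw [WeierstrassCurve.reductionMod, WeierstrassCurve.map_Δ]
    intro h0
    exact hgood ((ZMod.intCast_zmod_eq_zero_iff_dvd W.Δ ℓ).mp h0)
  have hF := HW.frobData (W.reductionMod ℓ) (IsLocalRing.ResidueField A)
  refine HW.frob_relation_galois_odd (S := ℚ) (W.map (Int.castRingHom ℚ)).toAffine A
    (W.map (Int.castRingHom A)) (HW.map_int_eq W _ _ _ _) hΔ hm hℓ (not_dvd_of_coprime hℓ hmℓ) hqA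
    τ hτ
    ((W.reductionMod ℓ).toAffine⁄(IsLocalRing.ResidueField A)) (HW.map_int_eq W _ _ _ _)
    (HW.frob (W.reductionMod ℓ) (IsLocalRing.ResidueField A))
    (fun Q hQ => ⟨hF.ne Q hQ, hF.hx Q, hF.hy Q⟩) (W.apOfModel ℓ) ?_ P hP
  intro Q
  have h := frob_quadratic_all (W.reductionMod ℓ) hΔ' Q
  have ha : W.apOfModel ℓ = (ℓ : ℤ) + 1 - (Nat.card (W.reductionMod ℓ).toAffine.Point : ℤ) := by
    rw [WeierstrassCurve.apOfModel, WeierstrassCurve.traceOfFrobenius, WeierstrassCurve.card,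
      Nat.card_zmod]
  rw [ha, ← natCast_zsmul]
  exact h

/-- (E2) -/
theorem inertia_good (W : WeierstrassCurve ℤ) {q m : ℕ} (hq : q.Prime)
    (hgood : W.IsGoodPrimeFor q) (hm : Odd m) (hmq : Nat.Coprime m q)
    (A : ValuationSubring (AlgebraicClosure ℚ)) (hA : A.LiesOverPrime q)
    (σ : AlgebraicClosure ℚ ≃ₐ[ℚ] AlgebraicClosure ℚ) (hσ : σ ∈ A.inertiaSubgroupIn ℚ)
    (P : EQ W) (hP : m • P = 0) : σ • P = P :=
  HW.inertia_trivial_odd W hq hgood hm (not_dvd_of_coprime hq hmq) A hA σ hσ P hP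

/-- unipotency of inertia on `E[m]` at a prime of good or multiplicative reduction. -/
theorem inertia_unipotent (W : WeierstrassCurve ℤ) {q m : ℕ} (hq : q.Prime)
    (hΔ0 : W.Δ ≠ 0) (hss : (q : ℤ) ∣ W.Δ → ¬ (q : ℤ) ∣ W.c₄) (hm : Odd m)
    (hmq : Nat.Coprime m q)
    (A : ValuationSubring (AlgebraicClosure ℚ)) (hA : A.LiesOverPrime q)
    (σ τ : AlgebraicClosure ℚ ≃ₐ[ℚ] AlgebraicClosure ℚ) (hσ : σ ∈ A.inertiaSubgroupIn ℚ)
    (hτ : τ ∈ A.inertiaSubgroupIn ℚ) (P : EQ W) (hP : m • P = 0) :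
    τ • (σ • P - P) = σ • P - P := by
  by_cases hΔ : (q : ℤ) ∣ W.Δ
  · exact HW.inertia_unipotent_odd W hq hΔ0 hΔ (hss hΔ) hm (not_dvd_of_coprime hq hmq) A hA σ τ
      hσ hτ P hP
  · rw [inertia_good W hq hΔ hm hmq A hA σ hσ P hP, sub_self, smul_zero]

/-- `σ + σ⁻¹ = 2` on `E[m]` for `σ` in inertia at a prime of good or multiplicative reduction. -/
theorem inertia_add_inv (W : WeierstrassCurve ℤ) {q m : ℕ} (hq : q.Prime)
    (hΔ0 : W.Δ ≠ 0) (hss : (q : ℤ) ∣ W.Δ → ¬ (q : ℤ) ∣ W.c₄) (hm : Odd m)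
    (hmq : Nat.Coprime m q)
    (A : ValuationSubring (AlgebraicClosure ℚ)) (hA : A.LiesOverPrime q)
    (σ : AlgebraicClosure ℚ ≃ₐ[ℚ] AlgebraicClosure ℚ) (hσ : σ ∈ A.inertiaSubgroupIn ℚ)
    (P : EQ W) (hP : m • P = 0) : σ • P + σ⁻¹ • P = (2 : ℤ) • P := by
  have h := inertia_unipotent W hq hΔ0 hss hm hmq A hA σ σ⁻¹ hσ (inv_mem hσ) P hP
  rw [smul_sub, inv_smul_smul] at h
  -- `P - σ⁻¹ P = σ P - P`
  rw [two_zsmul]
  have h' : σ • P + σ⁻¹ • P - (P + P) = 0 := by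
    have : σ • P + σ⁻¹ • P - (P + P) = (σ • P - P) - (P - σ⁻¹ • P) := by abel
    rw [this, h, sub_self]
  exact sub_eq_zero.1 h'

/-- a point of exact order `m`. -/
theorem exists_addOrderOf_eq (W : WeierstrassCurve ℤ) (hΔ0 : W.Δ ≠ 0) {m : ℕ} (hm : Odd m) :
    ∃ P : EQ W, addOrderOf P = m := by
  classical
  have hΔ : (W.map (Int.castRingHom ℚ)).Δ ≠ 0 := by
    rw [WeierstrassCurve.map_Δ]
    simpa using hΔ0
  have h2 : (2 : AlgebraicClosure ℚ) ≠ 0 := two_ne_zero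
  have hcard : ∀ d : ℕ, Odd d → Nat.card (Submodule.torsionBy ℤ (EQ W) (d : ℤ)) = d ^ 2 := by
    intro d hd
    exact HW.card_torsionBy (k := AlgebraicClosure ℚ) (W.map (Int.castRingHom ℚ)) h2 hΔ hd
      (Nat.cast_ne_zero.2 hd.pos.ne')
  have hfin : Finite (Submodule.torsionBy ℤ (EQ W) (m : ℤ)) :=
    HW.finite_torsionBy (k := AlgebraicClosure ℚ) (W.map (Int.castRingHom ℚ)) hm
      (Nat.cast_ne_zero.2 hm.pos.ne')
  set T := Submodule.torsionBy ℤ (EQ W) (m : ℤ) with hT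
  have hex : AddMonoid.ExponentExists T := AddMonoid.ExponentExists.of_finite
  obtain ⟨g, hg⟩ := AddMonoid.exists_addOrderOf_eq_exponent hex
  set e := AddMonoid.exponent T with he
  have he0 : 0 < e := AddMonoid.exponent_pos.2 hex
  have hem : e ∣ m := by
    apply AddMonoid.exponent_dvd_of_forall_nsmul_eq_zero
    intro x
    apply Subtype.ext
    have := x.2
    rw [Submodule.mem_torsionBy_iff, natCast_zsmul] at this
    exact this
  have heodd : Odd e := hm.of_dvd_nat hem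
  -- `T ⊆ E[e]`
  have hle : T ≤ Submodule.torsionBy ℤ (EQ W) (e : ℤ) := by
    intro x hx
    rw [Submodule.mem_torsionBy_iff, natCast_zsmul]
    have := AddMonoid.exponent_nsmul_eq_zero (⟨x, hx⟩ : T)
    exact congrArg Subtype.val this
  have hfin' : Finite (Submodule.torsionBy ℤ (EQ W) (e : ℤ)) :=
    HW.finite_torsionBy (k := AlgebraicClosure ℚ) (W.map (Int.castRingHom ℚ)) heodd
      (Nat.cast_ne_zero.2 he0.ne')
  have hc : m ^ 2 ≤ e ^ 2 := by
    rw [← hcard m hm, ← hcard e heodd]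
    exact Nat.card_le_card_of_injective (Submodule.inclusion hle) (Submodule.inclusion_injective hle)
  have hme : m ≤ e := by
    by_contra hlt
    rw [not_le] at hlt
    exact absurd hc (not_le.2 (Nat.pow_lt_pow_left hlt (by norm_num)))
  have hem' : e = m := le_antisymm (Nat.le_of_dvd hm.pos hem) hme
  refine ⟨(g : EQ W), ?_⟩
  rw [← hem', ← hg]
  exact addOrderOf_injective T.subtype.toAddMonoidHom Subtype.coe_injective g

/-- (E3) -/
theorem exists_order_add_inv (W : WeierstrassCurve ℤ) {q m : ℕ} (hq : q.Prime)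
    (hΔ0 : W.Δ ≠ 0) (hbad : (q : ℤ) ∣ W.Δ) (hc₄ : ¬ (q : ℤ) ∣ W.c₄) (hm : Odd m)
    (hmq : Nat.Coprime m q)
    (A : ValuationSubring (AlgebraicClosure ℚ)) (hA : A.LiesOverPrime q) :
    ∃ P : EQ W, addOrderOf P = m ∧
      ∀ σ ∈ A.inertiaSubgroupIn ℚ, σ • P + σ⁻¹ • P = (2 : ℤ) • P := by
  obtain ⟨P, hP⟩ := exists_addOrderOf_eq W hΔ0 hm
  refine ⟨P, hP, fun σ hσ => ?_⟩
  exact inertia_add_inv W hq hΔ0 (fun _ => hc₄) hm hmq A hA σ hσ P
    (by rw [← hP]; exact addOrderOf_nsmul_eq_zero P)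

end Fermat.Agent.S58
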