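import Fermat.Agent.S58.Cmp
import Fermat.Agent.SS.Top35.SMO
import Fermat.Agent.S54.Frobenius

/-!
# S58 / COEFF : `a_ℓ(g) = a_ℓ(E)` outside a finite set `⇒` the same at EVERY good prime `ℓ ∤ M`
(strong multiplicity one "eigenform versus elliptic curve", via pseudo-characters)
-/

set_option autoImplicit false

namespace Fermat.Agent.S58

open WeierstrassCurve Fermat.Agent.GAL Fermat.Agent.GAL.PC CongruenceSubgroup ModularFormClass

local notation "Qbar" => AlgebraicClosure ℚ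
local notation "GQ" => (AlgebraicClosure ℚ ≃ₐ[ℚ] AlgebraicClosure ℚ)
local notation "Zb" => integralClosure ℤ ℂ

theorem exists_odd_prime_ne (q : ℕ) : ∃ lam : ℕ, lam.Prime ∧ lam ≠ 2 ∧ lam ≠ q := by
  by_cases h : q = 3
  · exact ⟨5, by norm_num, by norm_num, by omega⟩
  · exact ⟨3, by norm_num, by norm_num, fun h' => h h'.symm⟩

theorem qCoeff_eq_apOfModel (W : WeierstrassCurve ℤ) (hΔ0 : W.Δ ≠ 0) {M : ℕ} [NeZero M]
    {g : CuspForm (Gamma0 M) 2} (hg : g.IsNormalizedEigenform) (S₀ : Finset ℕ)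
    (h : ∀ ℓ : ℕ, ℓ.Prime → ℓ ∉ S₀ → qCoeff g ℓ = (W.apOfModel ℓ : ℂ))
    {ℓ₀ : ℕ} (hℓ₀ : ℓ₀.Prime) (hgood : W.IsGoodPrimeFor ℓ₀) (hℓ₀M : ¬ ℓ₀ ∣ M) :
    qCoeff g ℓ₀ = (W.apOfModel ℓ₀ : ℂ) := by
  classical
  obtain ⟨lam, hlam, hlam2, hne⟩ := exists_odd_prime_ne ℓ₀
  obtain ⟨A, σ, hA, hσ⟩ := Fermat.Agent.S54.exists_isFrobeniusAt hℓ₀
  set S' : Finset ℕ := badSet W lam ∪ M.primeFactors with hS'
  have hlamS' : lam ∈ S' := Finset.mem_union_left _ (by simp [badSet])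
  have hMS' : ∀ q : ℕ, q.Prime → q ∣ M → q ∈ S' := fun q hq hqM =>
    Finset.mem_union_right _ (Nat.mem_primeFactors.2 ⟨hq, hqM, NeZero.ne M⟩)
  have hℓ₀b : ℓ₀ ∉ badSet W lam := notMem_badSet hgood (Ne.symm hne)
  have hℓ₀S' : ℓ₀ ∉ S' := by
    rw [hS', Finset.mem_union, not_or]
    exact ⟨hℓ₀b, fun h' => hℓ₀M (Nat.dvd_of_mem_primeFactors h')⟩
  set χ : CuspForm.heckeAlgebra M 2 (↑S' : Set ℕ) →+* Zb :=
    EigenChar.eigenHomInt hg (↑S' : Set ℕ) with hχ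
  have hχT : ∀ (ℓ : ℕ) (hℓ : ℓ.Prime) (hℓM : ¬ ℓ ∣ M) (hℓS : ℓ ∉ (↑S' : Set ℕ)),
      ((χ (CuspForm.heckeAlgebra.T hℓ hℓM hℓS) : Zb) : ℂ) = qCoeff g ℓ := fun ℓ hℓ hℓM hℓS => by
    rw [hχ, EigenChar.coe_eigenHomInt, EigenChar.eigenHom_T]
  set I : Ideal Zb := Ideal.span {(lam : Zb)} with hI
  have hlamI : (lam : Zb) ∈ I := Ideal.mem_span_singleton_self _
  have key : χ (CuspForm.heckeAlgebra.T hℓ₀ hℓ₀M (by exact_mod_cast hℓ₀S')) -
      ((W.apOfModel ℓ₀ : ℤ) : Zb) = 0 := by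
    refine Fermat.Agent.SS.eq_zero_of_forall_pow_dvd hlam _ fun n => ?_
    obtain ⟨t, c, hpc, -⟩ := Fermat.Agent.SS.heckePC_all hlam S' hlamS' hMS' n
    obtain ⟨tE, cE, -, -, hpcE, -, -, -, -⟩ := exists_tE W hΔ0 hlam hlam2 n ∅ Set.finite_empty
      (fun x hx => absurd hx (Set.notMem_empty x))
    have h1 := (isPrePC_mono (S' := (↑(S' ∪ S₀) : Set ℕ))
      (by exact_mod_cast Finset.subset_union_left) hpc.toIsPrePC).map (quotMap χ I lam hlamI n)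
    have h2 := (isPrePC_mono (S' := (↑(S' ∪ S₀) : Set ℕ))
      (by exact_mod_cast (Finset.subset_union_left.trans Finset.subset_union_left))
      hpcE.toIsPrePC).map (quotMap (Int.castRingHom Zb) I lam hlamI n)
    have h3 := isPrePC_congr (a' := fun ℓ => quotMap (Int.castRingHom Zb) I lam hlamI n
        (Ideal.Quotient.mk _ (W.apOfModel ℓ))) (fun ℓ hℓ hℓS => by
      have hℓS' : ℓ ∉ S' := fun h' => hℓS (by exact_mod_cast Finset.mem_union_left _ h')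
      have hℓS₀ : ℓ ∉ S₀ := fun h' => hℓS (by exact_mod_cast Finset.mem_union_right _ h')
      have hℓM : ¬ ℓ ∣ M := fun h' => hℓS' (hMS' ℓ hℓ h')
      rw [heckeT_eq hℓ hℓM (by exact_mod_cast hℓS'), quotMap_mk, quotMap_mk]
      congr 1
      apply Subtype.ext
      rw [hχT, h ℓ hℓ hℓS₀]
      simp) h1
    have h4 := congrFun (IsPrePC.unique Fermat.Agent.Cheb.preludeSpec h3 h2) σ
    rw [hpc.frob ℓ₀ hℓ₀ (by exact_mod_cast hℓ₀S') A hA σ hσ,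
      hpcE.frob ℓ₀ hℓ₀ (by exact_mod_cast hℓ₀b) A hA σ hσ,
      heckeT_eq hℓ₀ hℓ₀M (by exact_mod_cast hℓ₀S'), quotMap_mk, quotMap_mk, Ideal.Quotient.eq,
      hI, Ideal.span_singleton_pow, Ideal.mem_span_singleton] at h4
    exact h4
  have h5 := congrArg (fun x : Zb => (x : ℂ)) (sub_eq_zero.1 key)
  rw [hχT] at h5
  rw [h5]
  simp

end Fermat.Agent.S58
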