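import Mathlib.NumberTheory.Padics.RingHoms
import Fermat.Prelude.Def_CuspForm_HeckeAlgebra

/-!
# S58 / IOTA : a character of the Hecke algebra with integer values, and the coefficient ring `ℤ_[lam]`
-/

set_option autoImplicit false

namespace Fermat.Agent.S58

open CuspForm

theorem exists_iota {M : ℕ} [NeZero M] (S : Set ℕ) (chig : heckeAlgebra M 2 S →+* ℂ) (a : ℕ → ℤ)
    (hMS : ∀ q : ℕ, q.Prime → q ∣ M → q ∈ S)
    (h : ∀ (ℓ : ℕ) (hℓ : ℓ.Prime) (hℓM : ¬ ℓ ∣ M) (hℓS : ℓ ∉ S),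
      chig (heckeAlgebra.T hℓ hℓM hℓS) = (a ℓ : ℂ)) (O' : Type) [CommRing O'] :
    ∃ iota : chig.range →+* O', ∀ (ℓ : ℕ) (hℓ : ℓ.Prime) (hℓM : ¬ ℓ ∣ M) (hℓS : ℓ ∉ S),
      (iota.comp chig.rangeRestrict) (heckeAlgebra.T hℓ hℓM hℓS) = (a ℓ : O') := by
  have key : ∀ (y : Module.End ℂ (CuspForm (CongruenceSubgroup.Gamma0 M) 2))
      (hy : y ∈ Algebra.adjoin ℤ (heckeGenerators M 2 S)),
      chig ⟨y, hy⟩ ∈ (Int.castRingHom ℂ).range := by
    intro y hy
    induction hy using Algebra.adjoin_induction with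
    | mem x hx =>
      rcases hx with ⟨ℓ, hℓ, hℓM, hℓS, rfl⟩ | ⟨q, hqM, hq, hqS, rfl⟩
      · exact ⟨a ℓ, (h ℓ hℓ hℓM hℓS).symm⟩
      · exact absurd (hMS q hq hqM) hqS
    | algebraMap r =>
      refine ⟨r, ?_⟩
      have : (⟨algebraMap ℤ _ r, Subalgebra.algebraMap_mem _ r⟩ : heckeAlgebra M 2 S) =
          ((r : ℤ) : heckeAlgebra M 2 S) := by
        apply Subtype.ext
        simp
      rw [this, map_intCast]
      rfl
    | add x y hx hy ihx ihy =>
      have : (⟨x + y, add_mem hx hy⟩ : heckeAlgebra M 2 S) = ⟨x, hx⟩ + ⟨y, hy⟩ := rfl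
      rw [this, map_add]
      exact add_mem ihx ihy
    | mul x y hx hy ihx ihy =>
      have : (⟨x * y, mul_mem hx hy⟩ : heckeAlgebra M 2 S) = ⟨x, hx⟩ * ⟨y, hy⟩ := rfl
      rw [this, map_mul]
      exact mul_mem ihx ihy
  have hle : chig.range ≤ (Int.castRingHom ℂ).range := by
    rintro _ ⟨x, rfl⟩
    exact key x.1 x.2
  let e : ℤ ≃+* (Int.castRingHom ℂ).range :=
    RingEquiv.ofBijective (Int.castRingHom ℂ).rangeRestrict
      ⟨(RingHom.injective_int _).codRestrict _, (Int.castRingHom ℂ).rangeRestrict_surjective⟩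
  refine ⟨(Int.castRingHom O').comp ((e.symm : (Int.castRingHom ℂ).range →+* ℤ).comp
    (Subring.inclusion hle)), fun ℓ hℓ hℓM hℓS => ?_⟩
  have h1 : Subring.inclusion hle (chig.rangeRestrict (heckeAlgebra.T hℓ hℓM hℓS)) = e (a ℓ) := by
    apply Subtype.ext
    exact h ℓ hℓ hℓM hℓS
  simp only [RingHom.comp_apply]
  rw [h1]
  simp

section Zlam

variable (lam : ℕ) [Fact lam.Prime]

instance finite_residueField_padicInt : Finite (IsLocalRing.ResidueField ℤ_[lam]) :=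
  Finite.of_equiv _ (PadicInt.residueField (p := lam)).symm.toEquiv

theorem natCast_mem_maximalIdeal_padicInt :
    (lam : ℤ_[lam]) ∈ IsLocalRing.maximalIdeal ℤ_[lam] := by
  rw [PadicInt.maximalIdeal_eq_span_p]
  exact Ideal.mem_span_singleton_self _

example : IsAdicComplete (IsLocalRing.maximalIdeal ℤ_[lam]) ℤ_[lam] := inferInstance
example : IsDiscreteValuationRing ℤ_[lam] := inferInstance
example : CharZero ℤ_[lam] := inferInstance

end Zlam

end Fermat.Agent.S58
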