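import Fermat.Agent.SS.Old
import Fermat.Agent.GAL.EigenChar.Eigen

/-!
# S58 / LEVEL : raising the level `M ∣ R` of a system of good eigenvalues (no degeneracy maps `f(qz)`)

`g` of level `M`, seen at level `R`, is an eigenvector of the `T_ℓ`, `ℓ ∤ R` (`heckeT` is defined on functions), hence
`SS.exists_eigenform_of_ker_le` produces a normalised eigenform of level `R` with the same good eigenvalues.
-/

set_option autoImplicit false

namespace Fermat.Agent.S58

open CongruenceSubgroup ModularFormClass CuspForm Fermat.Agent.SS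

theorem Gamma0_le_Gamma0_of_dvd {M R : ℕ} (h : M ∣ R) : Gamma0 R ≤ Gamma0 M := by
  intro γ hγ
  rw [Gamma0_mem] at hγ ⊢
  rw [ZMod.intCast_zmod_eq_zero_iff_dvd] at hγ ⊢
  exact dvd_trans (by exact_mod_cast h) hγ

/-- a cusp form on `Γ₀(M)`, seen as a cusp form on `Γ₀(R)` for `M ∣ R`. -/
def cuspOfLevelDvd {M R : ℕ} [NeZero M] [NeZero R] (h : M ∣ R) {k : ℤ}
    (f : CuspForm (Gamma0 M) k) : CuspForm (Gamma0 R) k where
  toFun := f
  slash_action_eq' := by
    rintro _ ⟨γ, hγ, rfl⟩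
    exact SlashInvariantFormClass.slash_action_eq f _ ⟨γ, Gamma0_le_Gamma0_of_dvd h hγ, rfl⟩
  holo' := CuspFormClass.holo f
  zero_at_cusps' := fun hc => CuspFormClass.zero_at_cusps f
    ((Subgroup.IsArithmetic.isCusp_iff_isCusp_SL2Z _).mpr
      ((Subgroup.IsArithmetic.isCusp_iff_isCusp_SL2Z _).mp hc))

theorem exists_eigenform_of_dvd {M R : ℕ} [NeZero M] [NeZero R] (h : M ∣ R)
    {g : CuspForm (Gamma0 M) 2} (hg : g.IsNormalizedEigenform) :
    ∃ g' : CuspForm (Gamma0 R) 2, g'.IsNormalizedEigenform ∧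
      ∀ ℓ : ℕ, ℓ.Prime → ¬ ℓ ∣ R → qCoeff g' ℓ = qCoeff g ℓ := by
  set G : CuspForm (Gamma0 R) 2 := cuspOfLevelDvd h g with hG
  have hG0 : G ≠ 0 := by
    intro h0
    apply GAL.EigenChar.ne_zero_of_eigen hg
    ext z
    exact DFunLike.congr_fun h0 z
  have hT : ∀ ℓ : GoodP R,
      (goodT R dvd_rfl ℓ : Module.End ℂ (CuspForm (Gamma0 R) 2)) G = qCoeff g ℓ.1 • G := by
    intro ℓ
    have h1 := GAL.EigenChar.heckeTLin_eigen hg ℓ.1.2 (fun hd => ℓ.2 (hd.trans h))
    ext z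
    exact DFunLike.congr_fun h1 z
  have hall : ∀ t : MvPolynomial (GoodP R) ℤ,
      ((MvPolynomial.aeval (goodT R dvd_rfl) t : CuspForm.heckeAlgebra R 2 ∅) :
        Module.End ℂ (CuspForm (Gamma0 R) 2)) G =
      (MvPolynomial.aeval (fun ℓ : GoodP R => qCoeff g ℓ.1) t : ℂ) • G := by
    intro t
    induction t using MvPolynomial.induction_on with
    | C a =>
      simp only [MvPolynomial.algHom_C, algebraMap_int_eq, eq_intCast]
      simp [Int.cast_smul_eq_zsmul]
    | add p q hp hq =>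
      rw [map_add, map_add, add_smul, ← hp, ← hq]
      rfl
    | mul_X p ℓ hp =>
      rw [map_mul, map_mul, MvPolynomial.aeval_X, MvPolynomial.aeval_X]
      show ((MvPolynomial.aeval (goodT R dvd_rfl) p : CuspForm.heckeAlgebra R 2 ∅) :
        Module.End ℂ (CuspForm (Gamma0 R) 2))
          ((goodT R dvd_rfl ℓ : Module.End ℂ (CuspForm (Gamma0 R) 2)) G) = _
      rw [hT ℓ, map_smul, hp, smul_smul, mul_comm]
  obtain ⟨g', hg', hg'a⟩ := exists_eigenform_of_ker_le R (dvd_refl R)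
    (fun ℓ : GoodP R => qCoeff g ℓ.1) (fun t ht => by
      have h1 := hall t
      rw [ht] at h1
      have h2 : (0 : ℂ) • G = (MvPolynomial.aeval (fun ℓ : GoodP R => qCoeff g ℓ.1) t : ℂ) • G := by
        rw [zero_smul, ← h1]
        rfl
      exact (smul_left_injective ℂ hG0 h2).symm)
  exact ⟨g', hg', fun ℓ hℓ hℓR => hg'a ⟨⟨ℓ, hℓ⟩, hℓR⟩⟩

end Fermat.Agent.S58
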