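import Fermat.Prelude.Def_CuspForm_Newforms

/-!
# S58 / NEWFORM : the underlying newform (in the sense of the Prelude) of a normalised eigenform
-/

set_option autoImplicit false

namespace Fermat.Agent.S58

open ModularFormClass CongruenceSubgroup

theorem exists_newform {N : ℕ} (hN0 : N ≠ 0) {f : CuspForm (Gamma0 N) 2}
    (hf : f.IsNormalizedEigenform) :
    ∃ M : ℕ, M ∣ N ∧ ∃ g : CuspForm (Gamma0 M) 2, g.IsNewform ∧
      ∀ ℓ : ℕ, ℓ.Prime → ¬ ℓ ∣ N → qCoeff g ℓ = qCoeff f ℓ := by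
  classical
  have hex : ∃ M : ℕ, M ∣ N ∧ f.GoodEigensystemOccursAt M :=
    ⟨N, dvd_rfl, CuspForm.GoodEigensystemOccursAt.refl hf⟩
  obtain ⟨hMN, g, hg, hga⟩ := Nat.find_spec hex
  refine ⟨Nat.find hex, hMN, g, ⟨hg, fun M' hM' hne hocc => ?_⟩, hga⟩
  obtain ⟨g', hg', hg'a⟩ := hocc
  have hM0 : Nat.find hex ≠ 0 := fun h0 => hN0 (Nat.eq_zero_of_zero_dvd (h0 ▸ hMN))
  have hlt : M' < Nat.find hex :=
    lt_of_le_of_ne (Nat.le_of_dvd (Nat.pos_of_ne_zero hM0) hM') hne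
  refine Nat.find_min hex hlt ⟨hM'.trans hMN, g', hg', fun ℓ hℓ hℓN => ?_⟩
  rw [hg'a ℓ hℓ (fun h => hℓN (h.trans hMN)), hga ℓ hℓ hℓN]

end Fermat.Agent.S58
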