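import Fermat.Agent.S58.Hres
import Fermat.Agent.S58.Coeff
import Fermat.Agent.S58.Newform
import Fermat.Agent.S58.Iota
import Fermat.Agent.S58.Level
import Fermat.Prelude.Def_WeierstrassCurve_ConductorLevel

/-!
# S58 / MAIN : the theorem, with the statements of S35 and S36 as hypotheses
-/

set_option autoImplicit false
set_option linter.unusedVariables false

namespace Fermat.Agent.S58

open Polynomial
open CuspForm CuspForm.IsNewform WeierstrassCurve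

/-- the statement of S35 -/
def S35Stmt : Prop :=
  ∀
    {M : ℕ} [NeZero M] {g : CuspForm (CongruenceSubgroup.Gamma0 M) 2} (hg : g.IsNewform)
    (lam : ℕ) [Fact lam.Prime]
    (S : Finset ℕ)
    (O' : Type) [CommRing O'] [IsDomain O'] [IsDiscreteValuationRing O']
    [IsAdicComplete (IsLocalRing.maximalIdeal O') O'] [Finite (IsLocalRing.ResidueField O')]
    [CharZero O'] (hlamO' : (lam : O') ∈ IsLocalRing.maximalIdeal O')
    (chig : CuspForm.heckeAlgebra M 2 (↑S : Set ℕ) →+* ℂ)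
    (hchig : ∀ (ℓ : ℕ) (hℓ : ℓ.Prime) (hℓM : ¬ ℓ ∣ M) (hℓS : ℓ ∉ (↑S : Set ℕ)),
      chig (CuspForm.heckeAlgebra.T hℓ hℓM hℓS) = ModularFormClass.qCoeff g ℓ)
    (iota : chig.range →+* O')
    (hlamS : lam ∈ S) (hMS : ∀ q : ℕ, q.Prime → q ∣ M → q ∈ S),
    ∃ (O'' : Type) (_ : CommRing O'') (_ : IsDomain O'') (_ : IsDiscreteValuationRing O'')
      (_ : IsAdicComplete (IsLocalRing.maximalIdeal O'') O'') (_ : Finite (IsLocalRing.ResidueField O''))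
      (_ : CharZero O'') (_ : Algebra O' O'') (_ : Module.Finite O' O'') (_ : IsLocalHom (algebraMap O' O'')),
      Function.Injective (algebraMap O' O'') ∧
      ∃ ρ : GaloisRepAdic O'',
        (∀ (ℓ : ℕ) (hℓ : ℓ.Prime) (hℓM : ¬ ℓ ∣ M) (hℓS : ℓ ∉ (↑S : Set ℕ)),
          ∀ A : ValuationSubring (AlgebraicClosure ℚ), A.LiesOverPrime ℓ →
            ∀ σ : AlgebraicClosure ℚ ≃ₐ[ℚ] AlgebraicClosure ℚ, A.IsFrobeniusAt σ ℓ →
              LinearMap.charpoly (ρ.ρ σ) =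
                X ^ 2 - C (algebraMap O' O'' ((iota.comp chig.rangeRestrict) (CuspForm.heckeAlgebra.T hℓ hℓM hℓS))) * X
                  + C ((ℓ : O''))) ∧
        (∀ q : ℕ, q.Prime → q ≠ lam → q ∣ M → ¬ q ^ 2 ∣ M →
          ∀ A : ValuationSubring (AlgebraicClosure ℚ), A.LiesOverPrime q →
            ∀ σ : AlgebraicClosure ℚ ≃ₐ[ℚ] AlgebraicClosure ℚ, A.IsFrobeniusAt σ q →
              LinearMap.charpoly (ρ.ρ σ) = X ^ 2 - C ((q : O'') + 1) * X + C ((q : O'')) ∨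
              LinearMap.charpoly (ρ.ρ σ) = X ^ 2 + C ((q : O'') + 1) * X + C ((q : O'')))

/-- the statement of S36 -/
def S36Stmt : Prop :=
  ∀
    {M : ℕ} [NeZero M] {g : CuspForm (CongruenceSubgroup.Gamma0 M) 2} (hg : g.IsNewform)
    (lam : ℕ) [Fact lam.Prime]
    (S : Finset ℕ)
    (O' : Type) [CommRing O'] [IsDomain O'] [IsDiscreteValuationRing O']
    [IsAdicComplete (IsLocalRing.maximalIdeal O') O'] [Finite (IsLocalRing.ResidueField O')]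
    [CharZero O'] (hlamO' : (lam : O') ∈ IsLocalRing.maximalIdeal O')
    (hlam2 : lam ≠ 2)
    (chig : CuspForm.heckeAlgebra M 2 (↑S : Set ℕ) →+* ℂ)
    (hchig : ∀ (ℓ : ℕ) (hℓ : ℓ.Prime) (hℓM : ¬ ℓ ∣ M) (hℓS : ℓ ∉ (↑S : Set ℕ)),
      chig (CuspForm.heckeAlgebra.T hℓ hℓM hℓS) = ModularFormClass.qCoeff g ℓ)
    (iota : chig.range →+* O')
    (hlamS : lam ∈ S) (hMS : ∀ q : ℕ, q.Prime → q ∣ M → q ∈ S)
    (hres : ∀ (O'' : Type) [CommRing O''] [IsDomain O''] [IsDiscreteValuationRing O'']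
      [IsAdicComplete (IsLocalRing.maximalIdeal O'') O''] [Finite (IsLocalRing.ResidueField O'')] [CharZero O'']
      [Algebra O' O''] [Module.Finite O' O''] [IsLocalHom (algebraMap O' O'')],
      Function.Injective (algebraMap O' O'') → ∀ (ρ : GaloisRepAdic O''),
      (∀ (ℓ : ℕ) (hℓ : ℓ.Prime) (hℓlam : ℓ ≠ lam) (hℓM : ¬ ℓ ∣ M) (hℓS : ℓ ∉ (↑S : Set ℕ)),
        ∀ A : ValuationSubring (AlgebraicClosure ℚ), A.LiesOverPrime ℓ →
          ∀ σ : AlgebraicClosure ℚ ≃ₐ[ℚ] AlgebraicClosure ℚ, A.IsFrobeniusAt σ ℓ →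
            LinearMap.charpoly (ρ.ρ σ) =
              X ^ 2 - C (algebraMap O' O'' ((iota.comp chig.rangeRestrict) (CuspForm.heckeAlgebra.T hℓ hℓM hℓS))) * X
                + C ((ℓ : O'')))
      → ρ.residual.IsAbsolutelyIrreducible ∧ ρ.residual.IsOdd),
    ∃ (O'' : Type) (_ : CommRing O'') (_ : IsDomain O'') (_ : IsDiscreteValuationRing O'')
      (_ : IsAdicComplete (IsLocalRing.maximalIdeal O'') O'') (_ : Finite (IsLocalRing.ResidueField O''))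
      (_ : CharZero O'') (_ : Algebra O' O'') (_ : Module.Finite O' O'') (_ : IsLocalHom (algebraMap O' O'')),
      Function.Injective (algebraMap O' O'') ∧
      ∃ ρ : GaloisRepAdic O'',
        (∀ (ℓ : ℕ) (hℓ : ℓ.Prime) (hℓM : ¬ ℓ ∣ M) (hℓS : ℓ ∉ (↑S : Set ℕ)),
          ∀ A : ValuationSubring (AlgebraicClosure ℚ), A.LiesOverPrime ℓ →
            ∀ σ : AlgebraicClosure ℚ ≃ₐ[ℚ] AlgebraicClosure ℚ, A.IsFrobeniusAt σ ℓ →
              LinearMap.charpoly (ρ.ρ σ) =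
                X ^ 2 - C (algebraMap O' O'' ((iota.comp chig.rangeRestrict) (CuspForm.heckeAlgebra.T hℓ hℓM hℓS))) * X
                  + C ((ℓ : O''))) ∧
        (∀ q : ℕ, q.Prime → q ≠ lam → M.factorization q = 2 → ¬ ρ.IsUnipotentOnInertiaAt q)

open Fermat.Agent.GAL Fermat.Agent.GAL.PC IsLocalRing ModularFormClass

local notation "Qbar" => AlgebraicClosure ℚ
local notation "GQ" => (AlgebraicClosure ℚ ≃ₐ[ℚ] AlgebraicClosure ℚ)

section Ctx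

variable {W : WeierstrassCurve ℤ} {N : ℕ} {M : ℕ} [NeZero M]
  {g : CuspForm (CongruenceSubgroup.Gamma0 M) 2}

/-- the finite set of primes used on the modular side -/
def bigSet (N lam : ℕ) : Finset ℕ := insert lam N.primeFactors

theorem not_dvd_of_notMem_bigSet {N lam ℓ : ℕ} (hN0 : N ≠ 0) (hℓ : ℓ.Prime)
    (h : ℓ ∉ (↑(bigSet N lam) : Set ℕ)) : ¬ ℓ ∣ N := fun hd =>
  h (by
    rw [Finset.mem_coe, bigSet, Finset.mem_insert]
    exact Or.inr (Nat.mem_primeFactors.2 ⟨hℓ, hd, hN0⟩))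

theorem badSet_subset_bigSet (hN0 : N ≠ 0)
    (hbad : ∀ ℓ : ℕ, ℓ.Prime → (ℓ : ℤ) ∣ W.Δ → ℓ ∣ N) (lam : ℕ) :
    badSet W lam ⊆ bigSet N lam := by
  intro q hq
  rw [badSet, Finset.mem_insert] at hq
  rw [bigSet, Finset.mem_insert]
  rcases hq with h | h
  · exact Or.inl h
  · have hqp := Nat.prime_of_mem_primeFactors h
    exact Or.inr (Nat.mem_primeFactors.2 ⟨hqp,
      hbad q hqp (Int.natCast_dvd.2 (Nat.dvd_of_mem_primeFactors h)), hN0⟩)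

theorem natCast_mem_of_isLocalHom {O' O'' : Type} [CommRing O'] [IsLocalRing O'] [CommRing O'']
    [IsLocalRing O''] [Algebra O' O''] [IsLocalHom (algebraMap O' O'')] {lam : ℕ}
    (h : (lam : O') ∈ maximalIdeal O') : (lam : O'') ∈ maximalIdeal O'' := by
  have h1 : (lam : O'') = algebraMap O' O'' (lam : O') := (map_natCast _ _).symm
  rw [h1, mem_maximalIdeal, mem_nonunits_iff]
  intro hu
  exact (mem_maximalIdeal _).mp h (isUnit_of_map_unit (algebraMap O' O'') _ hu)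

/-- (5a) a prime `q ‖ M` is a prime of bad reduction. -/
theorem dvd_disc_of_dvd_level (h35 : S35Stmt) (hΔ0 : W.Δ ≠ 0) (hN0 : N ≠ 0)
    (hbad : ∀ ℓ : ℕ, ℓ.Prime → (ℓ : ℤ) ∣ W.Δ → ℓ ∣ N) (hMN : M ∣ N) (hg : g.IsNewform)
    (hga : ∀ ℓ : ℕ, ℓ.Prime → ¬ ℓ ∣ N → qCoeff g ℓ = (W.apOfModel ℓ : ℂ))
    {q : ℕ} (hq : q.Prime) (hqM : q ∣ M) (hq2 : ¬ q ^ 2 ∣ M) : (q : ℤ) ∣ W.Δ := by
  by_contra hgood
  obtain ⟨lam, hlam, hlam2, hne⟩ := exists_odd_prime_ne q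
  have : Fact lam.Prime := ⟨hlam⟩
  set S := bigSet N lam with hS
  have hlamS : lam ∈ S := by simp [hS, bigSet]
  have hMS : ∀ r : ℕ, r.Prime → r ∣ M → r ∈ S := fun r hr hrM => by
    rw [hS, bigSet, Finset.mem_insert]
    exact Or.inr (Nat.mem_primeFactors.2 ⟨hr, hrM.trans hMN, hN0⟩)
  have hchig : ∀ (ℓ : ℕ) (hℓ : ℓ.Prime) (hℓM : ¬ ℓ ∣ M) (hℓS : ℓ ∉ (↑S : Set ℕ)),
      EigenChar.eigenHom hg.1 (↑S : Set ℕ) (CuspForm.heckeAlgebra.T hℓ hℓM hℓS) = qCoeff g ℓ :=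
    fun ℓ hℓ hℓM hℓS => EigenChar.eigenHom_T hg.1 hℓ hℓM hℓS
  obtain ⟨iota, hiota⟩ := exists_iota (↑S : Set ℕ) (EigenChar.eigenHom hg.1 (↑S : Set ℕ))
    (fun ℓ => W.apOfModel ℓ) (fun r hr hrM => by exact_mod_cast hMS r hr hrM)
    (fun ℓ hℓ hℓM hℓS => by
      rw [hchig, hga ℓ hℓ (not_dvd_of_notMem_bigSet hN0 hℓ hℓS)]) ℤ_[lam]
  obtain ⟨O'', i1, i2, i3, i4, i5, i6, i7, i8, i9, -, ρ, hρ1, hρ2⟩ :=
    h35 hg lam S ℤ_[lam] (natCast_mem_maximalIdeal_padicInt lam) _ hchig iota hlamS hMS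
  have hlamT : (lam : O'') ∈ maximalIdeal O'' :=
    natCast_mem_of_isLocalHom (natCast_mem_maximalIdeal_padicInt lam)
  have hatt : Attached W S ρ := by
    intro ℓ hℓ hℓS A hA σ hσ
    have hℓM : ¬ ℓ ∣ M := fun hd => hℓS (hMS ℓ hℓ hd)
    rw [hρ1 ℓ hℓ hℓM (by exact_mod_cast hℓS) A hA σ hσ, hiota, map_intCast]
  obtain ⟨A, σ, hA, hσ⟩ := Fermat.Agent.S54.exists_isFrobeniusAt hq
  have htr := trace_frob_eq hΔ0 hlam hlam2 hlamT (badSet_subset_bigSet hN0 hbad lam) hatt hq hgood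
    (Ne.symm hne) A hA σ hσ
  have hcp := charpoly_eq_of_finrank_two ρ.finrank_eq (ρ.ρ σ)
  have habs := abs_apOfModel_le W hq
  rw [abs_le] at habs
  rcases hρ2 q hq (Ne.symm hne) hqM hq2 A hA σ hσ with h | h
  · rw [hcp, htr] at h
    have h1 := congrArg (fun P : O''[X] => P.coeff 1) h
    simp [coeff_X_pow] at h1
    have h2 : W.apOfModel q = (q : ℤ) + 1 := by
      have : ((W.apOfModel q : ℤ) : O'') = (((q : ℤ) + 1 : ℤ) : O'') := by
        push_cast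
        linear_combination -h1
      exact Int.cast_injective this
    omega
  · rw [hcp, htr] at h
    have h1 := congrArg (fun P : O''[X] => P.coeff 1) h
    simp [coeff_X_pow] at h1
    have h2 : - W.apOfModel q = (q : ℤ) + 1 := by
      have : ((- W.apOfModel q : ℤ) : O'') = (((q : ℤ) + 1 : ℤ) : O'') := by
        push_cast
        exact h1
      exact Int.cast_injective this
    omega

/-- (5b) the level `M` is squarefree. -/
theorem not_sq_dvd_level (h36 : S36Stmt) (hΔ0 : W.Δ ≠ 0) (hss : W.IsSemistableModel) (hN0 : N ≠ 0)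
    {p : ℕ} [Fact p.Prime] (hp2 : p ≠ 2) (hirr : W.ModRepIsIrreducible p) (hp2N : ¬ p ^ 2 ∣ N)
    (hbad : ∀ ℓ : ℕ, ℓ.Prime → (ℓ : ℤ) ∣ W.Δ → ℓ ∣ N)
    (hN3 : ∀ q : ℕ, q.Prime → ¬ q ^ 3 ∣ N) (hMN : M ∣ N) (hg : g.IsNewform)
    (hga : ∀ ℓ : ℕ, ℓ.Prime → ¬ ℓ ∣ N → qCoeff g ℓ = (W.apOfModel ℓ : ℂ))
    {q : ℕ} (hq : q.Prime) : ¬ q ^ 2 ∣ M := by
  intro hq2
  have hp : p.Prime := Fact.out
  have hqp : q ≠ p := by
    rintro rfl
    exact hp2N (hq2.trans hMN)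
  have hfac : M.factorization q = 2 := by
    have h1 := (hq.pow_dvd_iff_le_factorization (NeZero.ne M)).1 hq2
    have h2 : ¬ 3 ≤ M.factorization q := fun h =>
      hN3 q hq (((hq.pow_dvd_iff_le_factorization (NeZero.ne M)).2 h).trans hMN)
    omega
  set S := bigSet N p with hS
  have hpS : p ∈ S := by simp [hS, bigSet]
  have hMS : ∀ r : ℕ, r.Prime → r ∣ M → r ∈ S := fun r hr hrM => by
    rw [hS, bigSet, Finset.mem_insert]
    exact Or.inr (Nat.mem_primeFactors.2 ⟨hr, hrM.trans hMN, hN0⟩)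
  have hchig : ∀ (ℓ : ℕ) (hℓ : ℓ.Prime) (hℓM : ¬ ℓ ∣ M) (hℓS : ℓ ∉ (↑S : Set ℕ)),
      EigenChar.eigenHom hg.1 (↑S : Set ℕ) (CuspForm.heckeAlgebra.T hℓ hℓM hℓS) = qCoeff g ℓ :=
    fun ℓ hℓ hℓM hℓS => EigenChar.eigenHom_T hg.1 hℓ hℓM hℓS
  obtain ⟨iota, hiota⟩ := exists_iota (↑S : Set ℕ) (EigenChar.eigenHom hg.1 (↑S : Set ℕ))
    (fun ℓ => W.apOfModel ℓ) (fun r hr hrM => by exact_mod_cast hMS r hr hrM)
    (fun ℓ hℓ hℓM hℓS => by
      rw [hchig, hga ℓ hℓ (not_dvd_of_notMem_bigSet hN0 hℓ hℓS)]) ℤ_[p]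
  obtain ⟨O'', i1, i2, i3, i4, i5, i6, i7, i8, i9, -, ρ, hρ1, hρ2⟩ :=
    h36 hg p S ℤ_[p] (natCast_mem_maximalIdeal_padicInt p) hp2 _ hchig iota hpS hMS
      (by
        intro O'' _ _ _ _ _ _ _ _ _ _ ρ hρ
        refine hres_of_attached hΔ0 hp2 hirr
          (natCast_mem_of_isLocalHom (natCast_mem_maximalIdeal_padicInt p))
          (badSet_subset_bigSet hN0 hbad p) ?_
        intro ℓ hℓ hℓS A hA σ hσ
        have hℓM : ¬ ℓ ∣ M := fun hd => hℓS (hMS ℓ hℓ hd)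
        have hℓp : ℓ ≠ p := fun h => hℓS (by rw [h]; exact hpS)
        rw [hρ ℓ hℓ hℓp hℓM (by exact_mod_cast hℓS) A hA σ hσ, hiota, map_intCast])
  have hpT : (p : O'') ∈ maximalIdeal O'' :=
    natCast_mem_of_isLocalHom (natCast_mem_maximalIdeal_padicInt p)
  have hatt : Attached W S ρ := by
    intro ℓ hℓ hℓS A hA σ hσ
    have hℓM : ¬ ℓ ∣ M := fun hd => hℓS (hMS ℓ hℓ hd)
    rw [hρ1 ℓ hℓ hℓM (by exact_mod_cast hℓS) A hA σ hσ, hiota, map_intCast]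
  exact hρ2 q hq hqp hfac
    (isUnipotentOnInertiaAt hΔ0 hss hp hp2 hpT (badSet_subset_bigSet hN0 hbad p) hatt hq hqp)

end Ctx

/-- **S58**, from the statements of S35 and S36. -/
theorem main (h35 : S35Stmt) (h36 : S36Stmt)
    (W : WeierstrassCurve ℤ) (hss : W.IsSemistableModel) (N : ℕ)
    (p : ℕ) [Fact p.Prime] (hp2 : p ≠ 2) (hirr : W.ModRepIsIrreducible p)
    (hp2N : ¬ p ^ 2 ∣ N)
    (hN : W.IsModularModelOfLevel N) (hbad : ∀ ℓ : ℕ, ℓ.Prime → (ℓ : ℤ) ∣ W.Δ → ℓ ∣ N)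
    (hN3 : ∀ q : ℕ, q.Prime → ¬ q ^ 3 ∣ N) :
    W.IsModularModelOfLevel W.conductorLevel := by
  have hN0 : N ≠ 0 := by
    rintro rfl
    exact hp2N (dvd_zero _)
  have hΔ0 : W.Δ ≠ 0 := by
    intro h0
    -- every prime divides `N`
    obtain ⟨r, hrN, hr⟩ := Nat.exists_infinite_primes (N + 1)
    have := Nat.le_of_dvd (Nat.pos_of_ne_zero hN0) (hbad r hr (by rw [h0]; exact dvd_zero _))
    omega
  obtain ⟨f, hf, hfa⟩ := hN
  obtain ⟨M, hMN, g, hg, hgf⟩ := exists_newform hN0 hf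
  have : NeZero M := ⟨fun h0 => hN0 (Nat.eq_zero_of_zero_dvd (h0 ▸ hMN))⟩
  have hga : ∀ ℓ : ℕ, ℓ.Prime → ¬ ℓ ∣ N → qCoeff g ℓ = (W.apOfModel ℓ : ℂ) := fun ℓ hℓ hℓN => by
    rw [hgf ℓ hℓ hℓN]
    exact hfa ℓ hℓ (fun hd => hℓN (hbad ℓ hℓ hd)) hℓN
  have hsq : ∀ q : ℕ, q.Prime → ¬ q ^ 2 ∣ M := fun q hq =>
    not_sq_dvd_level h36 hΔ0 hss hN0 hp2 hirr hp2N hbad hN3 hMN hg hga hq
  have hdvd : ∀ q : ℕ, q.Prime → q ∣ M → (q : ℤ) ∣ W.Δ := fun q hq hqM =>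
    dvd_disc_of_dvd_level h35 hΔ0 hN0 hbad hMN hg hga hq hqM (hsq q hq)
  have hMR : M ∣ W.conductorLevel := by
    have hsf : Squarefree M := by
      rw [Nat.squarefree_iff_prime_squarefree]
      intro q hq hqq
      exact hsq q hq (by rw [sq]; exact hqq)
    rw [WeierstrassCurve.conductorLevel, Nat.radical_eq_prod_primeFactors,
      ← Nat.prod_primeFactors_of_squarefree hsf]
    apply Finset.prod_dvd_prod_of_subset
    intro q hq
    have hqp := Nat.prime_of_mem_primeFactors hq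
    exact Nat.mem_primeFactors.2 ⟨hqp,
      Int.natCast_dvd.1 (hdvd q hqp (Nat.dvd_of_mem_primeFactors hq)), Int.natAbs_ne_zero.2 hΔ0⟩
  obtain ⟨g', hg', hg'a⟩ := exists_eigenform_of_dvd hMR hg.1
  refine ⟨g', hg', fun ℓ hℓ hgood hℓR => ?_⟩
  rw [hg'a ℓ hℓ hℓR]
  exact qCoeff_eq_apOfModel W hΔ0 hg.1 N.primeFactors
    (fun r hr hrN => hga r hr (fun hd => hrN (Nat.mem_primeFactors.2 ⟨hr, hd, hN0⟩))) hℓ hgood
    (fun hd => hgood (hdvd ℓ hℓ hd))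

end Fermat.Agent.S58
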