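import Fermat.Agent.S58.ESide
import Fermat.Agent.HW.NECheb

/-!
# S58 / PTS : elementary facts on `E(Qbar)` and on `a_q`

* (E5) `exists_addOrderOf_eq_pow` (renamed: `exists_addOrderOf_eq` is in `ESide.lean`) : a point of exact order `lam ^ n` (`HW.card_torsionBy` for `lam ^ n` and `lam ^ (n-1)`:
  `lam ^ (2n) > lam ^ (2n-2)`, so some `P` with `lam ^ n • P = 0`, `lam ^ (n-1) • P ≠ 0`; `addOrderOf_eq_prime_pow`).
* `finite_tors` : `E[m]` is finite (`HW.finite_torsionBy`).
* (STAB) `exists_stab` : the stabiliser of a point is open (`L = ℚ(x, y)`, `HW.smul_eq_smul_of_coords` with `σ' = 1`).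
* (COUNT) `abs_apOfModel_le` : `|a_q| ≤ q` from `1 ≤ #W(𝔽_q) ≤ 2 q + 1` (at most two `y` for every `x`).  No Hasse bound.
-/

set_option autoImplicit false

namespace Fermat.Agent.S58

open WeierstrassCurve
open scoped WeierstrassCurve.Affine

local notation "Qbar" => AlgebraicClosure ℚ
local notation "GQ" => (AlgebraicClosure ℚ ≃ₐ[ℚ] AlgebraicClosure ℚ)

/-- (E5) -/
theorem exists_addOrderOf_eq_pow (W : WeierstrassCurve ℤ) (hΔ0 : W.Δ ≠ 0) {lam : ℕ} (hlam : lam.Prime)
    (hlam2 : lam ≠ 2) (n : ℕ) : ∃ P : EQ W, addOrderOf P = lam ^ n :=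
  exists_addOrderOf_eq W hΔ0 ((hlam.odd_of_ne_two hlam2).pow)

theorem finite_tors (W : WeierstrassCurve ℤ) {m : ℕ} (hm : Odd m) :
    {P : EQ W | m • P = 0}.Finite := by
  classical
  have hfin : Finite (Submodule.torsionBy ℤ (EQ W) (m : ℤ)) :=
    HW.finite_torsionBy (k := AlgebraicClosure ℚ) (W.map (Int.castRingHom ℚ)) hm
      (Nat.cast_ne_zero.2 hm.pos.ne')
  have h1 : {P : EQ W | m • P = 0} = ((Submodule.torsionBy ℤ (EQ W) (m : ℤ) : Submodule ℤ (EQ W)) :
      Set (EQ W)) := by
    ext P
    simp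
  rw [h1]
  exact Set.toFinite _

/-- (STAB) -/
theorem exists_stab (W : WeierstrassCurve ℤ) (P : EQ W) :
    ∃ L : IntermediateField ℚ Qbar, FiniteDimensional ℚ L ∧
      ∀ σ : GQ, (∀ y ∈ L, σ y = y) → σ • P = P := by
  refine ⟨IntermediateField.adjoin ℚ {S05.xc P, S05.yc P}, ?_, ?_⟩
  · apply IntermediateField.finiteDimensional_adjoin
    intro x _
    exact (Algebra.IsAlgebraic.isAlgebraic x).isIntegral
  · intro σ hσ
    have h1 := HW.smul_eq_smul_of_coords (W.map (Int.castRingHom ℚ)) σ 1 P
      (hσ _ (IntermediateField.subset_adjoin _ _ (by simp)))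
      (hσ _ (IntermediateField.subset_adjoin _ _ (by simp)))
    rw [h1, one_smul]

theorem finite_point {k : Type*} [Field k] [Finite k] (E : WeierstrassCurve.Affine k) :
    Finite E.Point := by
  let f : E.Point → Option (k × k) := fun P =>
    match P with
    | .zero => none
    | .some x y _ => some (x, y)
  apply Finite.of_injective f
  intro P Q h
  cases P with
  | zero =>
    cases Q with
    | zero => rfl
    | some x y hxy => simp [f] at h
  | some x y hxy =>
    cases Q with
    | zero => simp [f] at h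
    | some x' y' hxy' =>
      simp only [f, Option.some.injEq, Prod.mk.injEq] at h
      obtain ⟨rfl, rfl⟩ := h
      rfl

/-- (COUNT) -/
theorem abs_apOfModel_le (W : WeierstrassCurve ℤ) {q : ℕ} (hq : q.Prime) :
    |W.apOfModel q| ≤ q := by
  classical
  have : Fact q.Prime := ⟨hq⟩
  set E := (W.reductionMod q).toAffine with hE
  have : Finite E.Point := finite_point E
  let _ : Fintype E.Point := Fintype.ofFinite _
  have h1 : 1 ≤ Nat.card E.Point := Nat.card_pos
  have h2 : Nat.card E.Point ≤ 2 * q + 1 := by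
    rw [Nat.card_eq_fintype_card, ← Finset.card_univ,
      ← Finset.card_erase_add_one (Finset.mem_univ (0 : E.Point))]
    have h3 := S13.card_le_two_mul_card_image_xc ((Finset.univ : Finset E.Point).erase 0)
      (fun Q hQ => (Finset.mem_erase.1 hQ).1)
    have h4 : ∀ s : Finset (ZMod q), s.card ≤ q := fun s =>
      (Finset.card_le_univ s).trans (by rw [ZMod.card])
    have h6 := h3.trans (Nat.mul_le_mul_left 2 (h4 _))
    omega
  have h5 : W.apOfModel q = (q : ℤ) + 1 - (Nat.card E.Point : ℤ) := by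
    unfold WeierstrassCurve.apOfModel WeierstrassCurve.traceOfFrobenius WeierstrassCurve.card
    rw [Nat.card_zmod]
  rw [h5, abs_le]
  constructor <;> omega

end Fermat.Agent.S58
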