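import Fermat.Agent.S58.CoreX
import Fermat.Agent.S58.Pts
import Fermat.Agent.GAL.PC.GlueRaw
import Fermat.Agent.Cheb.Final

/-!
# S58 / TE : the pseudo-character of `E` modulo `lam ^ n`
-/

set_option autoImplicit false

namespace Fermat.Agent.S58

open WeierstrassCurve Fermat.Agent.GAL Fermat.Agent.GAL.PC
open scoped WeierstrassCurve.Affine

local notation "Qbar" => AlgebraicClosure ℚ
local notation "GQ" => (AlgebraicClosure ℚ ≃ₐ[ℚ] AlgebraicClosure ℚ)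

/-- `lam` and the primes of bad reduction -/
def badSet (W : WeierstrassCurve ℤ) (lam : ℕ) : Finset ℕ := insert lam W.Δ.natAbs.primeFactors

theorem good_of_notMem_badSet {W : WeierstrassCurve ℤ} (hΔ0 : W.Δ ≠ 0) {lam q : ℕ} (hq : q.Prime)
    (h : q ∉ badSet W lam) : W.IsGoodPrimeFor q ∧ q ≠ lam := by
  rw [badSet, Finset.mem_insert, not_or] at h
  refine ⟨fun hd => h.2 (Nat.mem_primeFactors.2 ⟨hq, Int.natCast_dvd.1 hd,
    Int.natAbs_ne_zero.2 hΔ0⟩), h.1⟩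

theorem notMem_badSet {W : WeierstrassCurve ℤ} {lam q : ℕ}
    (hgood : W.IsGoodPrimeFor q) (hne : q ≠ lam) : q ∉ badSet W lam := by
  rw [badSet, Finset.mem_insert, not_or]
  exact ⟨hne, fun h => hgood (Int.natCast_dvd.2 (Nat.dvd_of_mem_primeFactors h))⟩

theorem exists_tE (W : WeierstrassCurve ℤ) (hΔ0 : W.Δ ≠ 0) {lam : ℕ} (hlam : lam.Prime)
    (hlam2 : lam ≠ 2) (n : ℕ) (X : Set (EQ W)) (hXfin : X.Finite)
    (hXtors : ∀ x ∈ X, ∃ k : ℕ, lam ^ k • x = 0) :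
    ∃ (t : GQ → ℤ ⧸ Ideal.span {((lam : ℤ)) ^ n}) (c : GQ →* ℤ ⧸ Ideal.span {((lam : ℤ)) ^ n})
      (P : GQ → ℤ) (D : GQ → ℕ),
      IsPC (↑(badSet W lam) : Set ℕ) (fun ℓ => Ideal.Quotient.mk _ (W.apOfModel ℓ)) t c ∧
      (∀ σ : GQ, t σ = Ideal.Quotient.mk _ (P σ)) ∧
      (∀ σ : GQ, c σ = Ideal.Quotient.mk _ ((D σ : ℕ) : ℤ)) ∧
      (∀ σ : GQ, ∀ x ∈ X, σ • x + D σ • σ⁻¹ • x = P σ • x) ∧
      (∀ (σ : GQ) (a : ℕ), CycEq lam σ a → ∀ x ∈ X, σ • x + a • σ⁻¹ • x = P σ • x) := by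
  classical
  obtain ⟨x₀, hx₀⟩ := exists_addOrderOf_eq_pow W hΔ0 hlam hlam2 n
  have hodd : ∀ k : ℕ, Odd (lam ^ k) := fun k => (hlam.odd_of_ne_two hlam2).pow
  obtain ⟨t, c, hpc, -, M, P, D, hc, hD, hXM, -, -, -, ht, hcyc⟩ :=
    core_XD Fermat.Agent.Cheb.preludeSpec hlam (badSet W lam) (↑(badSet W lam) : Set ℕ)
      (by simp [badSet]) (le_refl _) (𝓗 := ℤ) (𝕋 := ℤ) (J := EQ W)
      (fun ℓ => W.apOfModel ℓ) (RingHom.id ℤ)
      (fun q hq hqU A hA σ hσ x hx => by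
        obtain ⟨k, hk⟩ := hx
        obtain ⟨hg, hne⟩ := good_of_notMem_badSet hΔ0 hq hqU
        exact inertia_good W hq hg (hodd k)
          (Nat.Coprime.pow_left _ ((Nat.coprime_primes hlam hq).2 (Ne.symm hne))) A hA σ hσ x hk)
      (fun ℓ hℓ hℓS A hA σ hσ x hx => by
        obtain ⟨k, hk⟩ := hx
        obtain ⟨hg, hne⟩ := good_of_notMem_badSet hΔ0 hℓ hℓS
        have := frobenius_relation_odd W hℓ hg (hodd k)
          (Nat.Coprime.pow_left _ ((Nat.coprime_primes hlam hℓ).2 (Ne.symm hne))) A hA σ hσ x hk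
        rw [natCast_zsmul] at this
        exact this)
      (fun x _ => exists_stab W x) n (insert x₀ X) (hXfin.insert x₀)
      (by
        intro x hx
        rcases Set.mem_insert_iff.1 hx with rfl | hx
        · exact ⟨n, by rw [← hx₀]; exact addOrderOf_nsmul_eq_zero x⟩
        · exact hXtors x hx)
      (by
        intro Q hQ
        have h1 := hQ x₀ (Set.mem_insert _ _)
        rw [RingHom.id_apply, Ideal.mem_span_singleton]
        have h2 := addOrderOf_dvd_iff_zsmul_eq_zero.2 h1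
        rw [hx₀] at h2
        exact_mod_cast h2)
  refine ⟨t, c, P, D, hpc, ht, ?_, fun σ x hx => hD σ x (hXM x (Set.mem_insert_of_mem _ hx)),
    fun σ a ha x hx => hcyc σ a ha x (hXM x (Set.mem_insert_of_mem _ hx))⟩
  intro σ
  rw [hc σ]
  rfl

end Fermat.Agent.S58
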