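import Fermat.Agent.HW.NEGroup
import Fermat.Agent.GAL.PC.S34Wire

/-!
# S58 / ABSIRR : absolute irreducibility of a residual representation from the irreducibility of `E[p]`

`ρb` : 2-dimensional over `k` (char `p`), `V` a finite `𝔽_p[G_ℚ]`-module (in practice `E[p]`), irreducible, `#V > p`, and for every
`σ` integers `a, d` with `tr ρb(σ) = a`, `det ρb(σ) = d` and `σ² - a σ + d = 0` on `V`; `c` an involution with `det ρb(c) = -1`.
Then `ρb ⊗ kbar` is irreducible.

Paper proof.  Let `N ≠ ⊥, ⊤` be stable in `kbar ⊗ ρb.V` (dimension 2): `N = kbar v`, `σ v = ψ(σ) v`, `ψ` multiplicative.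
Cayley-Hamilton (`GAL.PC.charpoly_eq_of_finrank_two`, `LinearMap.aeval_self_charpoly`, `LinearMap.trace_baseChange`,
`LinearMap.det_baseChange`) at `v` : `ψ(σ)² - tr(σ) ψ(σ) + det(σ) = 0`.
`H := {σ | ψ σ = 1 ∧ det ρb σ = 1}` is a normal subgroup containing all commutators and `c * c = 1`.
For `σ ∈ H` : `tr = 2`, `det = 1` in `kbar`, so `a ≡ 2`, `d ≡ 1 (mod p)` (`CharP`), so `σ² - 2σ + 1 = 0` on `V` (`p V = 0`).
Choose `a, d` by `choose`; `d` is multiplicative mod `p` because `det` is.  `HW.false_of_eisenstein` concludes.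
-/

set_option autoImplicit false

namespace Fermat.Agent.S58

open scoped TensorProduct

local notation "GQ" => (AlgebraicClosure ℚ ≃ₐ[ℚ] AlgebraicClosure ℚ)

theorem absIrr_intCast_zmod {p : ℕ} {k : Type*} [Ring k] [CharP k p] {a b : ℤ}
    (h : (a : k) = (b : k)) : (a : ZMod p) = (b : ZMod p) := by
  rw [ZMod.intCast_eq_intCast_iff]
  exact (CharP.intCast_eq_intCast k p).mp h

/-- Cayley-Hamilton in rank two, evaluated at an eigenvector. -/
theorem absIrr_eigen_quad {K M : Type*} [Field K] [AddCommGroup M] [Module K M]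
    [Module.Finite K M] (h2 : Module.finrank K M = 2) (f : Module.End K M) {v : M} (hv : v ≠ 0)
    {ψ : K} (hψ : f v = ψ • v) :
    ψ * ψ - LinearMap.trace K M f * ψ + LinearMap.det f = 0 := by
  have h1 := LinearMap.aeval_self_charpoly f
  rw [GAL.PC.charpoly_eq_of_finrank_two h2 f] at h1
  simp only [map_add, map_sub, map_mul, map_pow, Polynomial.aeval_X, Polynomial.aeval_C] at h1
  have h3 := congrArg (fun g : Module.End K M => g v) h1
  simp only [LinearMap.add_apply, LinearMap.sub_apply, Module.End.mul_apply, pow_two,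
    Module.algebraMap_end_apply, LinearMap.zero_apply, hψ, map_smul] at h3
  have h4 : (ψ * ψ - LinearMap.trace K M f * ψ + LinearMap.det f) • v = 0 := by
    rw [add_smul, sub_smul, mul_smul, mul_comm (LinearMap.trace K M f) ψ, mul_smul]
    exact h3
  exact (smul_eq_zero.mp h4).resolve_right hv

/-- (ABSIRR) -/
theorem absIrr_of_data {p : ℕ} [Fact p.Prime] (hp2 : p ≠ 2) {k : Type} [Field k] [CharP k p]
    (ρb : ResidualGaloisRep k) {V : Type*} [AddCommGroup V] [Module (ZMod p) V]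
    [DistribMulAction GQ V] [Finite V] (hcard : p < Nat.card V)
    (hirr : ∀ N : Submodule (ZMod p) V, (∀ σ : GQ, ∀ v ∈ N, σ • v ∈ N) → N = ⊥ ∨ N = ⊤)
    (hdata : ∀ σ : GQ, ∃ a d : ℤ, LinearMap.trace k ρb.V (ρb.ρ σ) = (a : k) ∧
      LinearMap.det (ρb.ρ σ) = (d : k) ∧ ∀ v : V, σ • σ • v - a • σ • v + d • v = 0)
    (c : GQ) (hc : c * c = 1) (hdetc : LinearMap.det (ρb.ρ c) = -1) :
    ρb.IsAbsolutelyIrreducible := by
  intro W hW
  by_contra hcon
  push Not at hcon
  obtain ⟨hbot, htop⟩ := hcon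
  set K := AlgebraicClosure k with hK
  have hfr : Module.finrank K (K ⊗[k] ρb.V) = 2 := (ρb.baseChange K).finrank_eq
  have hW' : ∀ σ : GQ, ∀ x ∈ W, (ρb.ρ σ).baseChange K x ∈ W := hW
  -- `W` is a line
  have hW1 : Module.finrank K W = 1 := by
    have h1 : Module.finrank K W < 2 := by
      rw [← hfr]
      exact Submodule.finrank_lt htop
    have h0 : Module.finrank K W ≠ 0 := by
      intro h
      exact hbot (Submodule.finrank_eq_zero.mp h)
    omega
  obtain ⟨⟨v, hvW⟩, hv0, hspan⟩ := finrank_eq_one_iff'.mp hW1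
  have hv : v ≠ 0 := fun h => hv0 (Subtype.ext h)
  have hex : ∀ σ : GQ, ∃ ψ : K, (ρb.ρ σ).baseChange K v = ψ • v := by
    intro σ
    obtain ⟨t, ht⟩ := hspan ⟨_, hW' σ v hvW⟩
    exact ⟨t, (congrArg Subtype.val ht).symm⟩
  choose ψ hψ using hex
  have hinj : Function.Injective (fun t : K => t • v) := smul_left_injective K hv
  have hψ1 : ψ 1 = 1 := by
    apply hinj
    simp only
    rw [← hψ 1, map_one, LinearMap.baseChange_one, one_smul]
    rfl
  have hψmul : ∀ σ τ : GQ, ψ (σ * τ) = ψ σ * ψ τ := by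
    intro σ τ
    apply hinj
    simp only
    rw [← hψ (σ * τ), map_mul, LinearMap.baseChange_mul, Module.End.mul_apply, hψ τ, map_smul,
      hψ σ, smul_smul, mul_comm]
  have hquadψ : ∀ σ : GQ, ψ σ * ψ σ - algebraMap k K (LinearMap.trace k ρb.V (ρb.ρ σ)) * ψ σ
      + algebraMap k K (LinearMap.det (ρb.ρ σ)) = 0 := by
    intro σ
    have := absIrr_eigen_quad hfr ((ρb.ρ σ).baseChange K) hv (hψ σ)
    rwa [LinearMap.trace_baseChange, LinearMap.det_baseChange] at this
  -- the homomorphism `(ψ, det)`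
  let F : GQ →* K × k :=
    { toFun := fun σ => (ψ σ, LinearMap.det (ρb.ρ σ))
      map_one' := by rw [hψ1, map_one, map_one]; rfl
      map_mul' := fun σ τ => by rw [hψmul, map_mul, map_mul]; rfl }
  have hFmem : ∀ σ : GQ, σ ∈ F.ker ↔ ψ σ = 1 ∧ LinearMap.det (ρb.ρ σ) = 1 := by
    intro σ
    rw [MonoidHom.mem_ker]
    exact Prod.ext_iff
  choose a d htr hdet hrel using hdata
  refine HW.false_of_eisenstein hp2 hcard hirr d ?_ (fun σ => ⟨a σ, hrel σ⟩) F.ker ?_ ?_ c ?_ ?_
  · intro σ τ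
    rw [← Int.cast_mul]
    apply absIrr_intCast_zmod (k := k)
    rw [Int.cast_mul, ← hdet, ← hdet, ← hdet, map_mul, map_mul]
  · intro σ τ
    rw [MonoidHom.mem_ker, map_mul, map_mul, map_mul, mul_right_comm (F σ) (F τ), ← map_mul,
      mul_inv_cancel, map_one, one_mul, ← map_mul, mul_inv_cancel, map_one]
  · intro σ hσ x
    obtain ⟨h1, h2⟩ := (hFmem σ).mp hσ
    have h3 := hquadψ σ
    rw [h1, h2, map_one] at h3
    have h4 : algebraMap k K (LinearMap.trace k ρb.V (ρb.ρ σ)) = algebraMap k K 2 := by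
      rw [map_ofNat]
      linear_combination -h3
    have h5 : LinearMap.trace k ρb.V (ρb.ρ σ) = 2 := (algebraMap k K).injective h4
    have ha : ((a σ : ℤ) : ZMod p) = ((2 : ℤ) : ZMod p) := by
      apply absIrr_intCast_zmod (k := k)
      rw [← htr, h5]
      norm_num
    have hd : ((d σ : ℤ) : ZMod p) = ((1 : ℤ) : ZMod p) := by
      apply absIrr_intCast_zmod (k := k)
      rw [← hdet, h2]
      norm_num
    have h6 := hrel σ x
    rw [← Int.cast_smul_eq_zsmul (ZMod p) (a σ), ← Int.cast_smul_eq_zsmul (ZMod p) (d σ), ha, hd,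
      Int.cast_smul_eq_zsmul, Int.cast_smul_eq_zsmul, one_smul] at h6
    exact h6
  · rw [hc]
    exact one_mem _
  · have : ((d c : ℤ) : ZMod p) = ((-1 : ℤ) : ZMod p) := by
      apply absIrr_intCast_zmod (k := k)
      rw [← hdet, hdetc]
      norm_num
    rw [this]
    norm_num

end Fermat.Agent.S58
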