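import Fermat.Agent.S58.TE
import Fermat.Agent.GAL.PC.S34Wire

/-!
# S58 / CMP : a `lam`-adic representation with the Frobenius traces of `E` has the local behaviour of `E`
-/

set_option autoImplicit false

namespace Fermat.Agent.S58

open WeierstrassCurve Fermat.Agent.GAL Fermat.Agent.GAL.PC Polynomial IsLocalRing
open scoped WeierstrassCurve.Affine

local notation "Qbar" => AlgebraicClosure ℚ
local notation "GQ" => (AlgebraicClosure ℚ ≃ₐ[ℚ] AlgebraicClosure ℚ)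

theorem isCyc_mono {R : Type*} [CommRing R] {S S' : Set ℕ} (h : S ⊆ S') {c : GQ →* R}
    (H : IsCyc S c) : IsCyc S' c :=
  ⟨H.lvl, fun ℓ hℓ hS A hA σ hσ => H.frob ℓ hℓ (fun h' => hS (h h')) A hA σ hσ⟩

theorem isPrePC_mono {R : Type*} [CommRing R] {S S' : Set ℕ} (h : S ⊆ S') {a : ℕ → R}
    {t : GQ → R} {c : GQ →* R} (H : IsPrePC S a t c) : IsPrePC S' a t c :=
  ⟨isCyc_mono h H.cyc, H.lvl, H.one, H.mul,
    fun ℓ hℓ hS A hA σ hσ => H.frob ℓ hℓ (fun h' => hS (h h')) A hA σ hσ⟩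

theorem isPrePC_congr {R : Type*} [CommRing R] {S : Set ℕ} {a a' : ℕ → R}
    (h : ∀ ℓ : ℕ, ℓ.Prime → ℓ ∉ S → a ℓ = a' ℓ)
    {t : GQ → R} {c : GQ →* R} (H : IsPrePC S a t c) : IsPrePC S a' t c :=
  ⟨H.cyc, H.lvl, H.one, H.mul,
    fun ℓ hℓ hS A hA σ hσ => (H.frob ℓ hℓ hS A hA σ hσ).trans (h ℓ hℓ hS)⟩

variable {T : Type} [CommRing T] [IsLocalRing T]

/-- `ρ` has the Frobenius characteristic polynomials of `W` outside `S`. -/
def Attached (W : WeierstrassCurve ℤ) (S : Finset ℕ) (ρ : GaloisRepAdic T) : Prop :=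
  ∀ ℓ : ℕ, ℓ.Prime → ℓ ∉ S → ∀ A : ValuationSubring Qbar, A.LiesOverPrime ℓ →
    ∀ σ : GQ, A.IsFrobeniusAt σ ℓ →
      LinearMap.charpoly (ρ.ρ σ) = X ^ 2 - C ((W.apOfModel ℓ : ℤ) : T) * X + C ((ℓ : T))

variable {W : WeierstrassCurve ℤ} {lam : ℕ} {S : Finset ℕ} {ρ : GaloisRepAdic T}

theorem mk_trace_eq (hlamT : (lam : T) ∈ maximalIdeal T)
    (hS : badSet W lam ⊆ S) (h : Attached W S ρ) (n : ℕ)
    {t : GQ → ℤ ⧸ Ideal.span {((lam : ℤ)) ^ n}} {c : GQ →* ℤ ⧸ Ideal.span {((lam : ℤ)) ^ n}}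
    (hpc : IsPC (↑(badSet W lam) : Set ℕ) (fun ℓ => Ideal.Quotient.mk _ (W.apOfModel ℓ)) t c)
    (σ : GQ) :
    Ideal.Quotient.mk (maximalIdeal T ^ n) (LinearMap.trace T ρ.V (ρ.ρ σ)) =
        quotMap (Int.castRingHom T) (maximalIdeal T) lam hlamT n (t σ) ∧
      Ideal.Quotient.mk (maximalIdeal T ^ n) (LinearMap.det (ρ.ρ σ)) =
        quotMap (Int.castRingHom T) (maximalIdeal T) lam hlamT n (c σ) := by
  have h1 := (isPrePC_mono (Finset.coe_subset.2 hS) hpc.toIsPrePC).map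
    (quotMap (Int.castRingHom T) (maximalIdeal T) lam hlamT n)
  have h2 := isPrePC_of_rep ρ (↑S : Set ℕ) (fun ℓ => ((W.apOfModel ℓ : ℤ) : T)) h n
  exact ⟨congrFun (IsPrePC.unique Fermat.Agent.Cheb.preludeSpec h2 h1) σ,
    DFunLike.congr_fun (IsCyc.unique Fermat.Agent.Cheb.preludeSpec h2.cyc h1.cyc) σ⟩

/-- (CMP-a) the trace of a Frobenius at ANY good prime `q ≠ lam`. -/
theorem trace_frob_eq [IsHausdorff (maximalIdeal T) T] (hΔ0 : W.Δ ≠ 0) (hlam : lam.Prime)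
    (hlam2 : lam ≠ 2) (hlamT : (lam : T) ∈ maximalIdeal T)
    (hS : badSet W lam ⊆ S) (h : Attached W S ρ) {q : ℕ} (hq : q.Prime)
    (hgood : W.IsGoodPrimeFor q) (hne : q ≠ lam) (A : ValuationSubring Qbar)
    (hA : A.LiesOverPrime q) (σ : GQ) (hσ : A.IsFrobeniusAt σ q) :
    LinearMap.trace T ρ.V (ρ.ρ σ) = ((W.apOfModel q : ℤ) : T) := by
  refine eq_of_forall_mk_eq (maximalIdeal T) fun n => ?_
  obtain ⟨t, c, P, D, hpc, -, -, -, -⟩ := exists_tE W hΔ0 hlam hlam2 n ∅ Set.finite_empty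
    (fun x hx => absurd hx (Set.notMem_empty x))
  rw [(mk_trace_eq hlamT hS h n hpc σ).1,
    hpc.frob q hq (by exact_mod_cast notMem_badSet hgood hne) A hA σ hσ]
  rfl

/-- the determinant is the cyclotomic character -/
theorem mk_det_eq (hlam : lam.Prime) (hlamT : (lam : T) ∈ maximalIdeal T)
    (hS : badSet W lam ⊆ S) (h : Attached W S ρ) (n : ℕ) [NeZero (lam ^ n)]
    (h0 : ((lam ^ n : ℕ) : T ⧸ maximalIdeal T ^ n) = 0) (σ : GQ) :
    Ideal.Quotient.mk (maximalIdeal T ^ n) (LinearMap.det (ρ.ρ σ)) =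
      cycTo (T ⧸ maximalIdeal T ^ n) (lam ^ n) h0 σ := by
  have h2 := isPrePC_of_rep ρ (↑S : Set ℕ) (fun ℓ => ((W.apOfModel ℓ : ℤ) : T)) h n
  have h3 := isCyc_cycTo (T ⧸ maximalIdeal T ^ n) (lam ^ n) h0 (↑S : Set ℕ) (fun ℓ hℓ hd => by
    rw [(Nat.prime_dvd_prime_iff_eq hℓ hlam).1 (hℓ.dvd_of_dvd_pow hd)]
    exact_mod_cast hS (by simp [badSet]))
  exact DFunLike.congr_fun (IsCyc.unique Fermat.Agent.Cheb.preludeSpec h2.cyc h3) σ

theorem natCast_pow_mk_eq_zero (hlamT : (lam : T) ∈ maximalIdeal T) (n : ℕ) :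
    ((lam ^ n : ℕ) : T ⧸ maximalIdeal T ^ n) = 0 := by
  rw [← map_natCast (Ideal.Quotient.mk (maximalIdeal T ^ n)), Ideal.Quotient.eq_zero_iff_mem,
    Nat.cast_pow]
  exact Ideal.pow_mem_pow hlamT n

/-- (CMP-b) semistable `⇒` unipotent on every inertia group away from `lam`. -/
theorem isUnipotentOnInertiaAt [IsHausdorff (maximalIdeal T) T] (hΔ0 : W.Δ ≠ 0)
    (hss : W.IsSemistableModel) (hlam : lam.Prime)
    (hlam2 : lam ≠ 2) (hlamT : (lam : T) ∈ maximalIdeal T)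
    (hS : badSet W lam ⊆ S) (h : Attached W S ρ) {q : ℕ} (hq : q.Prime) (hne : q ≠ lam) :
    ρ.IsUnipotentOnInertiaAt q := by
  intro A hA τ hτ
  have hcyc := cycEq_of_mem_inertia hlam hq hne hA hτ
  have htr : LinearMap.trace T ρ.V (ρ.ρ τ) = 2 := by
    refine eq_of_forall_mk_eq (maximalIdeal T) fun n => ?_
    by_cases hgood : W.IsGoodPrimeFor q
    · obtain ⟨t, c, P, D, hpc, -, -, -, -⟩ := exists_tE W hΔ0 hlam hlam2 n ∅ Set.finite_empty
        (fun x hx => absurd hx (Set.notMem_empty x))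
      have h1 := hpc.inert q hq (by exact_mod_cast notMem_badSet hgood hne) A hA τ hτ 1
      rw [one_mul, hpc.one] at h1
      rw [(mk_trace_eq hlamT hS h n hpc τ).1, h1, map_ofNat, map_ofNat]
    · have hbad : (q : ℤ) ∣ W.Δ := not_not.1 hgood
      obtain ⟨e, he, hfix⟩ := exists_order_add_inv W hq hΔ0 hbad (hss q hq hbad)
        ((hlam.odd_of_ne_two hlam2).pow (n := n))
        (Nat.Coprime.pow_left _ ((Nat.coprime_primes hlam hq).2 (Ne.symm hne))) A hA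
      obtain ⟨t, c, P, D, hpc, ht, -, -, hrel⟩ := exists_tE W hΔ0 hlam hlam2 n {e}
        (Set.finite_singleton e) (fun x hx => by
          rw [Set.mem_singleton_iff.1 hx]
          exact ⟨n, by rw [← he]; exact addOrderOf_nsmul_eq_zero e⟩)
      have h1 := hrel τ 1 hcyc e rfl
      rw [one_smul, hfix τ hτ] at h1
      have h3 : (P τ - 2) • e = 0 := by
        rw [sub_smul, ← h1, sub_self]
      have h4 := addOrderOf_dvd_iff_zsmul_eq_zero.2 h3
      rw [he] at h4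
      have h5 : t τ = 2 := by
        rw [ht τ, ← map_ofNat (Ideal.Quotient.mk (Ideal.span {((lam : ℤ)) ^ n})) 2,
          Ideal.Quotient.eq, Ideal.mem_span_singleton]
        exact_mod_cast h4
      rw [(mk_trace_eq hlamT hS h n hpc τ).1, h5, map_ofNat, map_ofNat]
  have hdet : LinearMap.det (ρ.ρ τ) = 1 := by
    refine eq_of_forall_mk_eq (maximalIdeal T) fun n => ?_
    have : NeZero (lam ^ n) := ⟨pow_ne_zero _ hlam.ne_zero⟩
    rw [mk_det_eq hlam hlamT hS h n (natCast_pow_mk_eq_zero hlamT n) τ, cycTo_apply,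
      hcyc (lam ^ n) ⟨n, rfl⟩, Nat.cast_one, map_one, map_one]
  rw [charpoly_eq_of_finrank_two ρ.finrank_eq, htr, hdet]
  simp only [map_ofNat, map_one]
  ring

end Fermat.Agent.S58
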