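import Fermat.Agent.GAL.CycloChar

/-!
# S58 / ODD : every involution `c ≠ 1` of `Qbar / ℚ` inverts the `p`-th roots of unity (`p` odd)

(Artin-Schreier "lite"; `ResidualGaloisRep.IsOdd` quantifies over ALL `c` with `c * c = 1`, `c ≠ 1`.)
Paper proof, everything in terms of `c` ("fixed" = fixed by `c`), `i` a root of `X² + 1` in `Qbar`:
1. `c ≠ 1` : pick `z` with `c z ≠ z`, `δ := z - c z ≠ 0`, `c δ = -δ`.
2. `c i = -i`.  Otherwise `c i = i` (`(c i)² = -1`, so `c i = ± i`).  Pick `w` with `w² = δ`, `n := w * c w` is fixed and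
   `n² = δ * c δ = -δ²`, so `(n/δ)² = -1`, `n = ± i δ`, `c n = ± i (-δ) = -n`, so `n = 0`, `δ = 0`. Contradiction.
3. `a, b` fixed `⇒ a² + b² = s²` with `s` fixed : `w² = a + b i`, `s := w * c w`, `s² = (a + b i)(a - b i)`.
   By induction a finite sum of squares of fixed elements is the square of a fixed element.
4. `ζ^p = 1`, `ζ ≠ 1`, `c ζ = ζ` : `-1 = ∑_{j=1}^{p-1} ζ^j = ∑ (ζ^(j (p+1)/2))²` is a sum of squares of fixed elements, so
   `-1 = s²` with `s` fixed, `s = ± i`, contradiction with 2.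
5. `χ := cycloChar p c` satisfies `χ² = 1`, so `χ = ± 1` in the field `ZMod p`; `χ = 1` means `c ζ = ζ` (`cycloChar_spec`).
-/

set_option autoImplicit false

namespace Fermat.Agent.S58

open Fermat.Agent.GAL

local notation "Qbar" => AlgebraicClosure ℚ
local notation "GQ" => (AlgebraicClosure ℚ ≃ₐ[ℚ] AlgebraicClosure ℚ)

/-- step 2 : a non-trivial involution moves `i`. -/
theorem odd_map_I (c : GQ) (hcc : ∀ x : Qbar, c (c x) = x) (hc1 : c ≠ 1) {i : Qbar}
    (hi : i * i = -1) : c i = -i := by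
  have hi0 : i ≠ 0 := by
    rintro rfl
    simp at hi
  have h2 : (2 : Qbar) ≠ 0 := two_ne_zero
  have hz : ∃ z : Qbar, c z ≠ z := by
    by_contra hcon
    push Not at hcon
    exact hc1 (AlgEquiv.ext hcon)
  obtain ⟨z, hz⟩ := hz
  set δ : Qbar := z - c z with hδ
  have hδ0 : δ ≠ 0 := fun h => hz (sub_eq_zero.mp h).symm
  have hcδ : c δ = -δ := by
    rw [hδ, map_sub, hcc]; ring
  have hci : c i * c i = -1 := by
    rw [← map_mul, hi, map_neg, map_one]
  have h3 : (c i - i) * (c i + i) = 0 := by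
    linear_combination hci - hi
  rcases mul_eq_zero.mp h3 with h | h
  · exfalso
    have hfix : c i = i := sub_eq_zero.mp h
    obtain ⟨w, hw⟩ := IsAlgClosed.exists_eq_mul_self δ
    set n : Qbar := w * c w with hn
    have hcn : c n = n := by
      rw [hn, map_mul, hcc]; ring
    have hnn : n * n = -(δ * δ) := by
      have : n * n = (w * w) * c (w * w) := by
        rw [hn, map_mul]; ring
      rw [this, ← hw, hcδ]; ring
    have h4 : (n - i * δ) * (n + i * δ) = 0 := by
      linear_combination hnn - δ * δ * hi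
    have hcn' : c n = -n := by
      rcases mul_eq_zero.mp h4 with h5 | h5
      · have : n = i * δ := sub_eq_zero.mp h5
        rw [this, map_mul, hfix, hcδ]; ring
      · have : n = -(i * δ) := eq_neg_of_add_eq_zero_left h5
        rw [this, map_neg, map_mul, hfix, hcδ]; ring
    have hn0 : n = 0 := by
      have : 2 * n = 0 := by linear_combination hcn' - hcn
      exact (mul_eq_zero.mp this).resolve_left h2
    rw [hn0] at hnn
    have : δ * δ = 0 := by
      have h6 := hnn
      rw [zero_mul] at h6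
      exact neg_eq_zero.mp h6.symm
    exact hδ0 (mul_self_eq_zero.mp this)
  · exact eq_neg_of_add_eq_zero_left h

/-- step 3 : a sum of two squares of fixed elements is the square of a fixed element. -/
theorem odd_two_squares (c : GQ) (hcc : ∀ x : Qbar, c (c x) = x) {i : Qbar} (hi : i * i = -1)
    (hci : c i = -i) {a b : Qbar} (ha : c a = a) (hb : c b = b) :
    ∃ s : Qbar, c s = s ∧ s * s = a * a + b * b := by
  obtain ⟨w, hw⟩ := IsAlgClosed.exists_eq_mul_self (a + b * i)
  refine ⟨w * c w, by rw [map_mul, hcc]; ring, ?_⟩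
  have : w * c w * (w * c w) = (w * w) * c (w * w) := by
    rw [map_mul]; ring
  rw [this, ← hw, map_add, map_mul, ha, hb, hci]
  linear_combination (-(b * b)) * hi

theorem odd_sum_squares (c : GQ) (hcc : ∀ x : Qbar, c (c x) = x) {i : Qbar} (hi : i * i = -1)
    (hci : c i = -i) {ι : Type*} (S : Finset ι) (f : ι → Qbar) (hf : ∀ j ∈ S, c (f j) = f j) :
    ∃ s : Qbar, c s = s ∧ s * s = ∑ j ∈ S, f j * f j := by
  classical
  induction S using Finset.induction_on with
  | empty => exact ⟨0, map_zero c, by simp⟩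
  | insert j S hj ih =>
    obtain ⟨s, hs, hss⟩ := ih (fun k hk => hf k (Finset.mem_insert_of_mem hk))
    obtain ⟨t, ht, htt⟩ := odd_two_squares c hcc hi hci (hf j (Finset.mem_insert_self j S)) hs
    exact ⟨t, ht, by rw [Finset.sum_insert hj, htt, hss]⟩

/-- step 4 -/
theorem odd_not_fix {p : ℕ} [Fact p.Prime] (hp2 : p ≠ 2) (c : GQ)
    (hcc : ∀ x : Qbar, c (c x) = x) (hc1 : c ≠ 1) {ζ : Qbar} (hζ : IsPrimitiveRoot ζ p) :
    c ζ ≠ ζ := by
  intro hfix
  have hp : p.Prime := Fact.out
  obtain ⟨i, hi⟩ := IsAlgClosed.exists_eq_mul_self (-1 : Qbar)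
  have hi : i * i = -1 := hi.symm
  have hci := odd_map_I c hcc hc1 hi
  have hi0 : i ≠ 0 := by
    rintro rfl
    simp at hi
  have h2 : (2 : Qbar) ≠ 0 := two_ne_zero
  obtain ⟨m, hm⟩ := hp.odd_of_ne_two hp2
  have hsum := hζ.geom_sum_eq_zero hp.one_lt
  obtain ⟨s, hs, hss⟩ := odd_sum_squares c hcc hi hci (Finset.range (2 * m))
    (fun j => ζ ^ ((j + 1) * (m + 1))) (fun j _ => by rw [map_pow, hfix])
  have hterm : ∀ j : ℕ, ζ ^ ((j + 1) * (m + 1)) * ζ ^ ((j + 1) * (m + 1)) = ζ ^ (j + 1) := by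
    intro j
    rw [← pow_add]
    have : (j + 1) * (m + 1) + (j + 1) * (m + 1) = p * (j + 1) + (j + 1) := by
      rw [hm]; ring
    rw [this, pow_add, pow_mul, hζ.pow_eq_one, one_pow, one_mul]
  rw [Finset.sum_congr rfl (fun j _ => hterm j)] at hss
  rw [hm, Finset.sum_range_succ', pow_zero] at hsum
  have hs1 : s * s = -1 := by
    rw [hss]; linear_combination hsum
  have h3 : (s - i) * (s + i) = 0 := by linear_combination hs1 - hi
  have hcs : c s = -s := by
    rcases mul_eq_zero.mp h3 with h | h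
    · rw [sub_eq_zero.mp h, hci]
    · rw [eq_neg_of_add_eq_zero_left h, map_neg, hci]
  have hs0 : s = 0 := by
    have : 2 * s = 0 := by linear_combination hcs - hs
    exact (mul_eq_zero.mp this).resolve_left h2
  rw [hs0] at hs1
  simp at hs1

/-- (ODD) -/
theorem cycloChar_of_involution {p : ℕ} [Fact p.Prime] (hp2 : p ≠ 2) (c : GQ) (hc : c * c = 1)
    (hc1 : c ≠ 1) : (cycloChar p c : ZMod p) = -1 := by
  have hp : p.Prime := Fact.out
  have hcc : ∀ x : Qbar, c (c x) = x := fun x => by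
    have := congrArg (fun f : GQ => f x) hc
    simpa using this
  have h1 : (cycloChar p c : ZMod p) * (cycloChar p c : ZMod p) = 1 := by
    rw [← Units.val_mul, ← map_mul, hc, map_one, Units.val_one]
  rcases mul_self_eq_one_iff.mp h1 with h | h
  · exfalso
    obtain ⟨ζ, hζ⟩ := HasEnoughRootsOfUnity.exists_primitiveRoot Qbar p
    have h2 := cycloChar_spec p c hζ.pow_eq_one
    have : Fact (1 < p) := ⟨hp.one_lt⟩
    rw [h, ZMod.val_one, pow_one] at h2
    exact odd_not_fix hp2 c hcc hc1 hζ h2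
  · exact h

end Fermat.Agent.S58
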