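import Fermat.Agent.S58.Cmp
import Fermat.Agent.S58.Odd
import Fermat.Agent.S58.AbsIrr

/-!
# S58 / HRES : the hypothesis `hres` of S36 for `lam = p`
-/

set_option autoImplicit false

namespace Fermat.Agent.S58

open WeierstrassCurve Fermat.Agent.GAL Fermat.Agent.GAL.PC Polynomial IsLocalRing
open scoped WeierstrassCurve.Affine

local notation "Qbar" => AlgebraicClosure ℚ
local notation "GQ" => (AlgebraicClosure ℚ ≃ₐ[ℚ] AlgebraicClosure ℚ)

variable {T : Type} [CommRing T] [IsLocalRing T]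
variable {W : WeierstrassCurve ℤ} {S : Finset ℕ} {ρ : GaloisRepAdic T}

theorem trace_residual (ρ : GaloisRepAdic T) (σ : GQ) :
    LinearMap.trace (ResidueField T) ρ.residual.V (ρ.residual.ρ σ) =
      residue T (LinearMap.trace T ρ.V (ρ.ρ σ)) :=
  LinearMap.trace_baseChange (ρ.ρ σ) (ResidueField T)

theorem det_residual (ρ : GaloisRepAdic T) (σ : GQ) :
    LinearMap.det (ρ.residual.ρ σ) = residue T (LinearMap.det (ρ.ρ σ)) :=
  LinearMap.det_baseChange (ρ.ρ σ)

theorem residue_eq_of_mk_eq {x y : T}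
    (h : Ideal.Quotient.mk (maximalIdeal T ^ 1) x = Ideal.Quotient.mk (maximalIdeal T ^ 1) y) :
    residue T x = residue T y := by
  rw [Ideal.Quotient.eq, pow_one] at h
  rw [← sub_eq_zero, ← map_sub, residue_eq_zero_iff]
  exact h

theorem hres_of_attached (hΔ0 : W.Δ ≠ 0) {p : ℕ} [Fact p.Prime] (hp2 : p ≠ 2)
    (hirr : W.ModRepIsIrreducible p) (hpT : (p : T) ∈ maximalIdeal T)
    (hS : badSet W p ⊆ S) (h : Attached W S ρ) :
    ρ.residual.IsAbsolutelyIrreducible ∧ ρ.residual.IsOdd := by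
  have hp : p.Prime := Fact.out
  have hodd : Odd p := hp.odd_of_ne_two hp2
  have hchar : CharP (ResidueField T) p := by
    refine (CharP.charP_iff_prime_eq_zero hp).mpr ?_
    rw [← map_natCast (residue T), residue_eq_zero_iff]
    exact hpT
  -- the determinant
  have h0 : ((p : ℕ) : T ⧸ maximalIdeal T ^ 1) = 0 := by
    rw [← map_natCast (Ideal.Quotient.mk (maximalIdeal T ^ 1)), Ideal.Quotient.eq_zero_iff_mem,
      pow_one]
    exact hpT
  have hdet : ∀ σ : GQ, (cycloChar p σ : ZMod p) = -1 → LinearMap.det (ρ.residual.ρ σ) = -1 := by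
    intro σ hσ
    have h2 := isPrePC_of_rep ρ (↑S : Set ℕ) (fun ℓ => ((W.apOfModel ℓ : ℤ) : T)) h 1
    have h3 := isCyc_cycTo (T ⧸ maximalIdeal T ^ 1) p h0 (↑S : Set ℕ) (fun ℓ hℓ hd => by
      rw [(Nat.prime_dvd_prime_iff_eq hℓ hp).1 hd]
      exact_mod_cast hS (by simp [badSet]))
    have h4 : Ideal.Quotient.mk (maximalIdeal T ^ 1) (LinearMap.det (ρ.ρ σ)) =
        cycTo (T ⧸ maximalIdeal T ^ 1) p h0 σ :=
      DFunLike.congr_fun (IsCyc.unique Fermat.Agent.Cheb.preludeSpec h2.cyc h3) σ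
    rw [cycTo_apply, hσ, map_neg, map_one, ← map_one (Ideal.Quotient.mk (maximalIdeal T ^ 1)),
      ← map_neg] at h4
    rw [det_residual, residue_eq_of_mk_eq h4, map_neg, map_one]
  refine ⟨?_, fun c hc hc1 => hdet c (cycloChar_of_involution hp2 c hc hc1)⟩
  -- absolute irreducibility
  have hΔQ : (W.map (Int.castRingHom ℚ)).Δ ≠ 0 := by
    rw [map_Δ]; simpa using hΔ0
  have hpQ : ((p : ℕ) : Qbar) ≠ 0 := by exact_mod_cast hp.ne_zero
  have hfin : Finite (HW.TorsQ W p) :=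
    HW.finite_torsionBy (k := Qbar) (W.map (Int.castRingHom ℚ)) hodd hpQ
  have hcard : Nat.card (HW.TorsQ W p) = p ^ 2 :=
    HW.card_torsionBy (k := Qbar) (W.map (Int.castRingHom ℚ)) two_ne_zero hΔQ hodd hpQ
  obtain ⟨c₀, hc₀, hc₀χ⟩ := exists_complexConj
  obtain ⟨t, c, P, D, hpc, ht, hc, hD, -⟩ := exists_tE W hΔ0 hp hp2 1 {x : EQ W | p • x = 0}
    (finite_tors W hodd) (fun x hx => ⟨1, by rw [pow_one]; exact hx⟩)
  refine absIrr_of_data (p := p) (V := HW.TorsQ W p) hp2 ρ.residual ?_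
    (fun N hN => hirr.2 N hN) (fun σ => ⟨P σ, (D σ : ℤ), ?_, ?_, fun v => ?_⟩) c₀ hc₀
    (hdet c₀ (hc₀χ p))
  · rw [hcard]
    nlinarith [hp.two_le]
  · have h1 := (mk_trace_eq hpT hS h 1 hpc σ).1
    rw [ht σ, quotMap_mk] at h1
    rw [trace_residual, residue_eq_of_mk_eq h1, eq_intCast, map_intCast]
  · have h1 := (mk_trace_eq hpT hS h 1 hpc σ).2
    rw [hc σ, quotMap_mk] at h1
    rw [det_residual, residue_eq_of_mk_eq h1, eq_intCast, map_intCast]
  · apply Subtype.ext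
    have hv : p • v.1 = 0 := by
      have := (Submodule.mem_torsionBy_iff _ _).1 v.2
      rwa [natCast_zsmul] at this
    have hσv : σ • v.1 ∈ {x : EQ W | p • x = 0} := by
      show p • σ • v.1 = 0
      rw [smul_comm, hv]
      exact smul_zero (A := EQ W) σ
    have h1 := hD σ (σ • v.1) hσv
    rw [inv_smul_smul] at h1
    show σ • σ • v.1 - P σ • σ • v.1 + (D σ : ℤ) • v.1 = 0
    rw [← h1, natCast_zsmul]
    abel

end Fermat.Agent.S58
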